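/-
LR / node [TOP] (helper21), part 2: the three seams consumed by the top-level assembly of S41, as
`Prop`s (each is discharged by the node named in brackets):

* `lrtop_PD_stmt`    [PD]  : the duality package on `Hom(gh_H M, 𝔽_p)`;
* `lrtop_ES_stmt`    [ES]  : Eichler–Shimura for the `q`-new part (from a `q`-new eigen-character of
  `gh_H (N q)` to a `q`-new eigen cusp form);
* `lrtop_Entry_stmt` [ES]  : the period character of a normalised eigenform.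
Prefix `lrtop_`.
-/
import Mathlib
import Fermat.Agent.JT3.T2.Dual
import Fermat.Agent.LR.MTX.Homology
import Fermat.Agent.LR.NEW.Final

set_option autoImplicit false

noncomputable section

open CongruenceSubgroup CuspForm ModularFormClass
open Fermat.Agent.JT3

namespace Fermat.Agent.LR

/-- **[PD]**: for every odd prime `p` there are skew, left-nondegenerate biadditive forms `Ω M` on
`Hom(gh_H M, 𝔽_p)` (`M ≥ 1`) for which restriction and transfer along both degeneracy maps are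
adjoint. -/
def lrtop_PD_stmt : Prop :=
  ∀ p : ℕ, p.Prime → p ≠ 2 →
    ∃ Ω : ∀ M : ℕ, (gh_H M →+ ZMod p) →+ (gh_H M →+ ZMod p) →+ ZMod p,
      (∀ M : ℕ, 0 < M → ∀ x : gh_H M →+ ZMod p, (∀ y, Ω M x y = 0) → x = 0) ∧
      (∀ M : ℕ, 0 < M → ∀ x y : gh_H M →+ ZMod p, Ω M x y = - Ω M y x) ∧
      (∀ (M r : ℕ) [Fact r.Prime], 0 < M → ∀ (hrM : ¬ r ∣ M) (ψ : gh_H M →+ ZMod p)
        (z : gh_H (M * r) →+ ZMod p),
        Ω (M * r) (ψ.comp (lrh_A M r)) z = Ω M ψ (z.comp (lrh_At hrM))) ∧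
      (∀ (M r : ℕ) [Fact r.Prime], 0 < M → ∀ (hrM : ¬ r ∣ M) (ψ : gh_H M →+ ZMod p)
        (z : gh_H (M * r) →+ ZMod p),
        Ω (M * r) (ψ.comp (lrh_B hrM)) z = Ω M ψ (z.comp (lrh_Bt hrM)))

/-- **[ES]**: a nonzero character `Θ` of `gh_H (N q)` killed by both transfers, an eigenvector of the
good Hecke operators, comes with a nonzero `q`-new cusp form with the same eigenvalues. -/
def lrtop_ES_stmt : Prop :=
  ∀ (N q : ℕ) [NeZero N] [NeZero (N * q)] [Fact q.Prime] (hqN : ¬ q ∣ N)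
    (Θ : gh_H (N * q) →+ ℂ), Θ ≠ 0 →
      Θ.comp (lrh_At hqN) = 0 → Θ.comp (lrh_Bt hqN) = 0 →
      ∀ (S : Set ℕ) (θ : ℕ → ℂ),
        (∀ ℓ : ℕ, ℓ.Prime → ¬ ℓ ∣ N * q → ℓ ∉ S →
          Θ.comp (t2f_TH (N * q) ℓ).toAddMonoidHom = θ ℓ • Θ) →
        ∃ g₀ : CuspForm (Gamma0 (N * q)) 2, g₀ ≠ 0 ∧ g₀ ∈ lrnew_newSub hqN ∧
          ∀ (ℓ : ℕ) (hℓ : ℓ.Prime) (hℓM : ¬ ℓ ∣ N * q), ℓ ∉ S →
            heckeTLin 2 hℓ hℓM g₀ = θ ℓ • g₀

/-- **[ES], entry side**: a normalised eigenform of level `N` has a nonzero period character on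
`gh_H N`, an eigenvector of every `T_ℓ` (`ℓ ∤ N`) with eigenvalue `a_ℓ`. -/
def lrtop_Entry_stmt : Prop :=
  ∀ (N : ℕ) [NeZero N] (f : CuspForm (Gamma0 N) 2), f.IsNormalizedEigenform →
    ∃ ψ : gh_H N →+ ℂ, ψ ≠ 0 ∧ ∀ ℓ : ℕ, ℓ.Prime → ¬ ℓ ∣ N →
      ψ.comp (t2f_TH N ℓ).toAddMonoidHom = qCoeff f ℓ • ψ

end Fermat.Agent.LR
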