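/-
LR / [TOP] helper lemmas (helper7, prefix `lrh7_`): formal consequences of the [PD] API
(skew + ADJ-A + ADJ-B of ruling #2771 (R3)) that [TOP] needs for helper15's (DUAL):

* `lrh7_selfadj` : `T_q` is self-adjoint for `Om N` (from `lrh_B_At`, `lrh_A_Bt`);
* `lrh7_adj_i`   : `Om (N q) (i (ψ₁, ψ₂)) z = Om N ψ₁ (i† z).1 + Om N ψ₂ (i† z).2`.

Everything is stated for a bare family `Om M : (gh_H M →+ F) → (gh_H M →+ F) → F`, so any packaging
(`→ₗ`, `→+`) of the final API applies by coercion.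
-/
import Fermat.Agent.LR.MTX.Homology

set_option autoImplicit false

open Fermat.Agent.JT3

namespace Fermat.Agent.LR

variable {F : Type*} [AddCommGroup F]

/-- `T_q = B ∘ Aᵗ = A ∘ Bᵗ` is self-adjoint for a skew form with ADJ-A and ADJ-B. -/
theorem lrh7_selfadj (Om : ∀ M : ℕ, (gh_H M →+ F) → (gh_H M →+ F) → F)
    {N q : ℕ} [Fact q.Prime] (hqN : ¬ q ∣ N)
    (hskewN : ∀ x y : gh_H N →+ F, Om N x y = - Om N y x)
    (hskewNq : ∀ x y : gh_H (N * q) →+ F, Om (N * q) x y = - Om (N * q) y x)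
    (hadjA : ∀ (ψ : gh_H N →+ F) (z : gh_H (N * q) →+ F),
      Om (N * q) (ψ.comp (lrh_A N q)) z = Om N ψ (z.comp (lrh_At hqN)))
    (hadjB : ∀ (ψ : gh_H N →+ F) (z : gh_H (N * q) →+ F),
      Om (N * q) (ψ.comp (lrh_B hqN)) z = Om N ψ (z.comp (lrh_Bt hqN)))
    (ψ v : gh_H N →+ F) :
    Om N (ψ.comp (t2e_TH hqN)) v = Om N ψ (v.comp (t2e_TH hqN)) := by
  have h1 : Om (N * q) (ψ.comp (lrh_A N q)) (v.comp (lrh_B hqN)) =
      Om N ψ (v.comp (t2e_TH hqN)) := by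
    rw [hadjA, AddMonoidHom.comp_assoc, lrh_B_At]
  have h2 : Om (N * q) (v.comp (lrh_B hqN)) (ψ.comp (lrh_A N q)) =
      Om N v (ψ.comp (t2e_TH hqN)) := by
    rw [hadjB, AddMonoidHom.comp_assoc, lrh_A_Bt]
  rw [hskewN (ψ.comp (t2e_TH hqN)) v, ← h2, hskewNq, neg_neg, h1]

/-- The adjunction between `i = lrh_i` and `i† = lrh_idag` for the orthogonal sum of two copies of
`Om N`, from ADJ-A, ADJ-B and additivity in the first variable. -/
theorem lrh7_adj_i (Om : ∀ M : ℕ, (gh_H M →+ F) → (gh_H M →+ F) → F)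
    {N q : ℕ} [Fact q.Prime] (hqN : ¬ q ∣ N)
    (hadd : ∀ (x x' z : gh_H (N * q) →+ F), Om (N * q) (x + x') z = Om (N * q) x z + Om (N * q) x' z)
    (hadjA : ∀ (ψ : gh_H N →+ F) (z : gh_H (N * q) →+ F),
      Om (N * q) (ψ.comp (lrh_A N q)) z = Om N ψ (z.comp (lrh_At hqN)))
    (hadjB : ∀ (ψ : gh_H N →+ F) (z : gh_H (N * q) →+ F),
      Om (N * q) (ψ.comp (lrh_B hqN)) z = Om N ψ (z.comp (lrh_Bt hqN)))
    (u : (gh_H N →+ F) × (gh_H N →+ F)) (z : gh_H (N * q) →+ F) :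
    Om (N * q) (lrh_i hqN F u) z =
      Om N u.1 (lrh_idag hqN F z).1 + Om N u.2 (lrh_idag hqN F z).2 := by
  show Om (N * q) (u.1.comp (lrh_A N q) + u.2.comp (lrh_B hqN)) z = _
  rw [hadd, hadjA, hadjB]
  rfl

end Fermat.Agent.LR
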