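/-
LR / node [TOP] (helper21), part 1: generic algebra of `Hom(H, A)` for a finitely generated free
abelian group `H` (used with `H = gh_H M`): precomposition (linear over the coefficients),
postcomposition, lifting along surjections, the kernel of reduction modulo `p`, finiteness, and the
complex span of the integral lattice.
Prefix `lrtop_`.
-/
import Mathlib

set_option autoImplicit false

noncomputable section

namespace Fermat.Agent.LR

variable {H : Type*} [AddCommGroup H]

/-- postcomposition with `π : A →+ B` on `Hom(H, A)` -/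
def lrtop_post {A B : Type*} [AddCommGroup A] [AddCommGroup B] (π : A →+ B) :
    (H →+ A) →+ (H →+ B) where
  toFun ψ := π.comp ψ
  map_zero' := AddMonoidHom.comp_zero π
  map_add' ψ ψ' := AddMonoidHom.comp_add π ψ ψ'

@[simp] theorem lrtop_post_apply {A B : Type*} [AddCommGroup A] [AddCommGroup B] (π : A →+ B)
    (ψ : H →+ A) (x : H) : lrtop_post π ψ x = π (ψ x) := rfl

/-- precomposition with `t : H' →+ H` on `Hom(H, A)`, linear over the coefficients -/
def lrtop_pre (R : Type*) [Semiring R] {H' : Type*} [AddCommGroup H'] (A : Type*) [AddCommGroup A]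
    [Module R A] (t : H' →+ H) : (H →+ A) →ₗ[R] (H' →+ A) where
  toFun ψ := ψ.comp t
  map_add' _ _ := rfl
  map_smul' _ _ := rfl

@[simp] theorem lrtop_pre_apply (R : Type*) [Semiring R] {H' : Type*} [AddCommGroup H']
    (A : Type*) [AddCommGroup A] [Module R A] (t : H' →+ H) (ψ : H →+ A) :
    lrtop_pre R A t ψ = ψ.comp t := rfl

theorem lrtop_post_pre {R : Type*} [Semiring R] {H' : Type*} [AddCommGroup H']
    {A B : Type*} [AddCommGroup A] [AddCommGroup B] [Module R A] [Module R B] (π : A →+ B)
    (t : H' →+ H) (ψ : H →+ A) :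
    lrtop_post π (lrtop_pre R A t ψ) = lrtop_pre R B t (lrtop_post π ψ) := rfl

/-- lifting along a surjection (`H` free) -/
theorem lrtop_post_surjective [Module.Free ℤ H] {A B : Type*} [AddCommGroup A] [AddCommGroup B]
    (π : A →+ B) (hπ : Function.Surjective π) : Function.Surjective (lrtop_post (H := H) π) := by
  intro ψ
  obtain ⟨h, hh⟩ := Module.projective_lifting_property π.toIntLinearMap ψ.toIntLinearMap hπ
  refine ⟨h.toAddMonoidHom, ?_⟩
  refine AddMonoidHom.ext fun x => ?_
  exact LinearMap.congr_fun hh x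

/-- the kernel of reduction modulo `p` on `Hom(H, ℤ)` is `p Hom(H, ℤ)` -/
theorem lrtop_red_ker (p : ℕ) (ψ : H →+ ℤ)
    (h : lrtop_post (Int.castAddHom (ZMod p)) ψ = 0) : ∃ y : H →+ ℤ, ψ = (p : ℤ) • y := by
  have hd : ∀ x, (p : ℤ) ∣ ψ x := by
    intro x
    have := DFunLike.congr_fun h x
    rw [lrtop_post_apply, AddMonoidHom.zero_apply, Int.coe_castAddHom] at this
    exact (ZMod.intCast_zmod_eq_zero_iff_dvd _ _).mp this
  by_cases hp : p = 0
  · subst hp
    refine ⟨0, ?_⟩
    refine AddMonoidHom.ext fun x => ?_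
    have := hd x
    simpa using this
  have hp' : (p : ℤ) ≠ 0 := by exact_mod_cast hp
  refine ⟨AddMonoidHom.mk' (fun x => ψ x / (p : ℤ)) ?_, ?_⟩
  · intro x y
    rw [map_add, Int.add_ediv_of_dvd_left (hd x)]
  · refine AddMonoidHom.ext fun x => ?_
    rw [AddMonoidHom.smul_apply, AddMonoidHom.mk'_apply, smul_eq_mul, Int.mul_ediv_cancel' (hd x)]

/-- `Hom(H, ℤ)` is torsion-free -/
theorem lrtop_int_tf (n : ℤ) (hn : n ≠ 0) (ψ : H →+ ℤ) (h : n • ψ = 0) : ψ = 0 := by
  refine AddMonoidHom.ext fun x => ?_
  have := DFunLike.congr_fun h x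
  rw [AddMonoidHom.smul_apply, AddMonoidHom.zero_apply, smul_eq_mul] at this
  rcases mul_eq_zero.mp this with h1 | h1
  · exact absurd h1 hn
  · exact h1

/-- `Hom(H, ℤ) → Hom(H, ℂ)` is injective -/
theorem lrtop_cplx_injective : Function.Injective (lrtop_post (H := H) (Int.castAddHom ℂ)) := by
  intro ψ ψ' h
  refine AddMonoidHom.ext fun x => ?_
  have := DFunLike.congr_fun h x
  simp only [lrtop_post_apply, Int.coe_castAddHom] at this
  exact_mod_cast this

section free

variable [Module.Free ℤ H] [Module.Finite ℤ H]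

/-- evaluation on a basis: `Hom(H, A) ≃ A^n`, linear over the coefficients -/
def lrtop_evalEquiv (R : Type*) [Semiring R] (A : Type*) [AddCommGroup A] [Module R A] :
    (H →+ A) ≃ₗ[R] (Module.Free.ChooseBasisIndex ℤ H → A) where
  toFun ψ i := ψ (Module.Free.chooseBasis ℤ H i)
  map_add' _ _ := rfl
  map_smul' _ _ := rfl
  invFun v := ((Module.Free.chooseBasis ℤ H).constr ℤ v).toAddMonoidHom
  left_inv ψ := by
    refine AddMonoidHom.ext fun x => ?_
    have : (Module.Free.chooseBasis ℤ H).constr ℤ (fun i => ψ (Module.Free.chooseBasis ℤ H i)) =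
        ψ.toIntLinearMap := by
      apply (Module.Free.chooseBasis ℤ H).ext
      intro i
      rw [Module.Basis.constr_basis]
      rfl
    exact LinearMap.congr_fun this x
  right_inv v := by
    funext i
    exact Module.Basis.constr_basis _ ℤ v i

instance lrtop_finite_int : Module.Finite ℤ (H →+ ℤ) :=
  Module.Finite.equiv (lrtop_evalEquiv (H := H) ℤ ℤ).symm

instance lrtop_finite_field (K : Type*) [Field K] : FiniteDimensional K (H →+ K) :=
  Module.Finite.equiv (lrtop_evalEquiv (H := H) K K).symm

/-- the complex span of the integral lattice is everything -/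
theorem lrtop_span_top :
    Submodule.span ℂ (Set.range (lrtop_post (H := H) (Int.castAddHom ℂ))) = ⊤ := by
  classical
  rw [eq_top_iff]
  intro ψ _
  set b := Module.Free.chooseBasis ℤ H with hb
  have hψ : ψ = ∑ i, ψ (b i) • lrtop_post (Int.castAddHom ℂ) ((b.coord i).toAddMonoidHom) := by
    apply (lrtop_evalEquiv (H := H) ℂ ℂ).injective
    funext j
    rw [map_sum]
    show ψ (b j) = (∑ i, (lrtop_evalEquiv (H := H) ℂ ℂ)
      (ψ (b i) • lrtop_post (Int.castAddHom ℂ) ((b.coord i).toAddMonoidHom))) j
    rw [Finset.sum_apply]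
    have : ∀ i, (lrtop_evalEquiv (H := H) ℂ ℂ)
        (ψ (b i) • lrtop_post (Int.castAddHom ℂ) ((b.coord i).toAddMonoidHom)) j =
        if j = i then ψ (b i) else 0 := by
      intro i
      show ψ (b i) • (((b.coord i) (b j) : ℤ) : ℂ) = _
      rw [Module.Basis.coord_apply, Module.Basis.repr_self, Finsupp.single_apply]
      by_cases h1 : j = i
      · rw [if_pos h1, if_pos h1]
        simp
      · rw [if_neg h1, if_neg h1]
        simp
    simp_rw [this]
    rw [Finset.sum_ite_eq Finset.univ j]
    simp
  rw [hψ]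
  exact Submodule.sum_mem _ fun i _ =>
    Submodule.smul_mem _ _ (Submodule.subset_span ⟨_, rfl⟩)

end free

end Fermat.Agent.LR
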