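/-
LR / node [TOP] (helper21), part 3: the concrete operators on `Hom(gh_H M, A)`:
`lrtop_T R A M ℓ` (precomposition with `T_H ℓ`), its compatibility with `lrh_i`, `lrh_idag`
(from helper5's [MTX+]), commutation, the bilinear forms built from biadditive ones, and
self-adjointness of `T_ℓ` from the two adjunctions of [PD].
Prefix `lrtop_`.
-/
import Mathlib
import Fermat.Agent.JT3.Gateway.HomologyFree
import Fermat.Agent.JT3.T2.Dual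
import Fermat.Agent.LR.MTX.EquivHom
import Fermat.Agent.LR.Top.Hom

set_option autoImplicit false
set_option linter.unusedSectionVars false
set_option linter.style.haveILetI false

noncomputable section

open CongruenceSubgroup
open Fermat.Agent.JT3

namespace Fermat.Agent.LR

instance lrtop_finite_H (N : ℕ) [NeZero N] : Module.Finite ℤ (gh_H N) :=
  Module.Finite.iff_addGroup_fg.mpr inferInstance

section ops

variable {N : ℕ} [NeZero N]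

theorem lrtop_TH_eq {ℓ : ℕ} (hℓ : ℓ.Prime) (hℓN : ¬ ℓ ∣ N) :
    (t2f_TH N ℓ).toAddMonoidHom = @t2e_TH N ℓ ⟨hℓ⟩ hℓN := by
  rw [t2f_TH_eq hℓ hℓN]
  rfl

variable (N) in
/-- `T_ℓ` on `Hom(gh_H N, A)`: precomposition with `T_H ℓ`, linear over the coefficients -/
def lrtop_T (R : Type*) [Semiring R] (A : Type*) [AddCommGroup A] [Module R A] (ℓ : ℕ) :
    (gh_H N →+ A) →ₗ[R] (gh_H N →+ A) :=
  lrtop_pre R A (t2f_TH N ℓ).toAddMonoidHom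

theorem lrtop_T_apply (R : Type*) [Semiring R] (A : Type*) [AddCommGroup A] [Module R A] (ℓ : ℕ)
    (ψ : gh_H N →+ A) : lrtop_T N R A ℓ ψ = ψ.comp (t2f_TH N ℓ).toAddMonoidHom := rfl

/-- the operators commute on `Hom(gh_H N, A)`, `A` torsion-free -/
theorem lrtop_T_comm (R : Type*) [Semiring R] (A : Type*) [AddCommGroup A] [Module R A]
    [NoZeroSMulDivisors ℕ A] (ℓ ℓ' : ℕ) (ψ : gh_H N →+ A) :
    lrtop_T N R A ℓ (lrtop_T N R A ℓ' ψ) = lrtop_T N R A ℓ' (lrtop_T N R A ℓ ψ) := by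
  have := t2f_comm (N := N) ℓ' ℓ ψ
  exact this

theorem lrtop_post_T {A B : Type*} [AddCommGroup A] [AddCommGroup B] (R R' : Type*) [Semiring R]
    [Semiring R'] [Module R A] [Module R' B] (π : A →+ B) (ℓ : ℕ) (ψ : gh_H N →+ A) :
    lrtop_post π (lrtop_T N R A ℓ ψ) = lrtop_T N R' B ℓ (lrtop_post π ψ) := rfl

variable {q : ℕ} [Fact q.Prime] [NeZero (N * q)]

/-- `i` commutes with `T_ℓ` -/
theorem lrtop_i_T (hqN : ¬ q ∣ N) {ℓ : ℕ} (hℓ : ℓ.Prime) (hℓNq : ¬ ℓ ∣ N * q) (A : Type*)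
    [AddCommGroup A] (ψ : (gh_H N →+ A) × (gh_H N →+ A)) :
    (lrh_i hqN A ψ).comp (t2f_TH (N * q) ℓ).toAddMonoidHom =
      lrh_i hqN A (ψ.1.comp (t2f_TH N ℓ).toAddMonoidHom, ψ.2.comp (t2f_TH N ℓ).toAddMonoidHom) := by
  have hℓN : ¬ ℓ ∣ N := fun h => hℓNq (Dvd.dvd.mul_right h q)
  haveI : Fact ℓ.Prime := ⟨hℓ⟩
  rw [lrtop_TH_eq hℓ hℓNq, lrtop_TH_eq hℓ hℓN]
  exact lre_i_TH hqN hℓN hℓNq A ψ

/-- `i†` commutes with `T_ℓ` -/
theorem lrtop_idag_T (hqN : ¬ q ∣ N) {ℓ : ℕ} (hℓ : ℓ.Prime) (hℓNq : ¬ ℓ ∣ N * q) (A : Type*)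
    [AddCommGroup A] (φ : gh_H (N * q) →+ A) :
    lrh_idag hqN A (φ.comp (t2f_TH (N * q) ℓ).toAddMonoidHom) =
      (((lrh_idag hqN A φ).1).comp (t2f_TH N ℓ).toAddMonoidHom,
        ((lrh_idag hqN A φ).2).comp (t2f_TH N ℓ).toAddMonoidHom) := by
  have hℓN : ¬ ℓ ∣ N := fun h => hℓNq (Dvd.dvd.mul_right h q)
  haveI : Fact ℓ.Prime := ⟨hℓ⟩
  rw [lrtop_TH_eq hℓ hℓNq, lrtop_TH_eq hℓ hℓN]
  exact lre_idag_TH hqN hℓN hℓNq A φ

end ops

/-! ### Bilinear forms -/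

/-- a biadditive form on an `𝔽_p`-space is bilinear -/
def lrtop_bil {p : ℕ} {V : Type*} [AddCommGroup V] [Module (ZMod p) V]
    (β : V →+ V →+ ZMod p) : V →ₗ[ZMod p] V →ₗ[ZMod p] ZMod p :=
  LinearMap.mk₂ (ZMod p) (fun x y => β x y)
    (fun x x' y => by rw [map_add, AddMonoidHom.add_apply])
    (fun c x y => by
      have h1 : β (c • x) = c • β x := ZMod.map_smul β c x
      rw [h1, AddMonoidHom.smul_apply])
    (fun x y y' => map_add _ _ _)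
    (fun c x y => ZMod.map_smul (β x) c y)

@[simp] theorem lrtop_bil_apply {p : ℕ} {V : Type*} [AddCommGroup V] [Module (ZMod p) V]
    (β : V →+ V →+ ZMod p) (x y : V) : lrtop_bil β x y = β x y := rfl

/-- **`T_ℓ` is self-adjoint** for a skew family of forms for which restriction and transfer are
adjoint along both degeneracy maps. -/
theorem lrtop_selfadj {p : ℕ}
    (Ω : ∀ M : ℕ, (gh_H M →+ ZMod p) →+ (gh_H M →+ ZMod p) →+ ZMod p)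
    (hskew : ∀ M : ℕ, 0 < M → ∀ x y : gh_H M →+ ZMod p, Ω M x y = - Ω M y x)
    (hA : ∀ (M r : ℕ) [Fact r.Prime], 0 < M → ∀ (hrM : ¬ r ∣ M) (ψ : gh_H M →+ ZMod p)
        (z : gh_H (M * r) →+ ZMod p),
        Ω (M * r) (ψ.comp (lrh_A M r)) z = Ω M ψ (z.comp (lrh_At hrM)))
    (hB : ∀ (M r : ℕ) [Fact r.Prime], 0 < M → ∀ (hrM : ¬ r ∣ M) (ψ : gh_H M →+ ZMod p)
        (z : gh_H (M * r) →+ ZMod p),
        Ω (M * r) (ψ.comp (lrh_B hrM)) z = Ω M ψ (z.comp (lrh_Bt hrM)))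
    {M ℓ : ℕ} [Fact ℓ.Prime] (hM : 0 < M) (hℓM : ¬ ℓ ∣ M) (ψ z : gh_H M →+ ZMod p) :
    Ω M (ψ.comp (t2e_TH hℓM)) z = Ω M ψ (z.comp (t2e_TH hℓM)) := by
  have hMℓ : 0 < M * ℓ := Nat.mul_pos hM (Fact.out : ℓ.Prime).pos
  calc Ω M (ψ.comp (t2e_TH hℓM)) z
      = Ω M ((ψ.comp (lrh_B hℓM)).comp (lrh_At hℓM)) z := by
        rw [AddMonoidHom.comp_assoc, lrh_B_At]
    _ = - Ω M z ((ψ.comp (lrh_B hℓM)).comp (lrh_At hℓM)) := hskew M hM _ _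
    _ = - Ω (M * ℓ) (z.comp (lrh_A M ℓ)) (ψ.comp (lrh_B hℓM)) := by rw [hA M ℓ hM hℓM]
    _ = Ω (M * ℓ) (ψ.comp (lrh_B hℓM)) (z.comp (lrh_A M ℓ)) := by
        rw [hskew (M * ℓ) hMℓ (z.comp (lrh_A M ℓ)), neg_neg]
    _ = Ω M ψ ((z.comp (lrh_A M ℓ)).comp (lrh_Bt hℓM)) := hB M ℓ hM hℓM _ _
    _ = Ω M ψ (z.comp (t2e_TH hℓM)) := by rw [AddMonoidHom.comp_assoc, lrh_A_Bt]

end Fermat.Agent.LR
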