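/-
LR / node [TOP] (helper21), part 4 (= step (T2)): from a complex eigen-character of `gh_H N` whose
eigenvalues are congruent to integers `a j` modulo a proper ideal over `p`, and a nondegenerate form
on `Hom(gh_H N, 𝔽_p)` for which the operators are self-adjoint, a nonzero eigenvector modulo `p`.
Instance of helper15's `lrrd_main`.
Prefix `lrtop_`.
-/
import Mathlib
import Fermat.Agent.LR.Rib.Red
import Fermat.Agent.LR.Top.Ops

set_option autoImplicit false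
set_option linter.unusedSectionVars false

noncomputable section

open CongruenceSubgroup
open Fermat.Agent.JT3

namespace Fermat.Agent.LR

theorem lrtop_level {p N : ℕ} [NeZero N] [Fact p.Prime]
    {J : Type*} (ℓ : J → ℕ) (a : J → ℤ)
    (β : (gh_H N →+ ZMod p) →ₗ[ZMod p] (gh_H N →+ ZMod p) →ₗ[ZMod p] ZMod p)
    (hβnd : ∀ u, (∀ w, β u w = 0) → u = 0)
    (hβt : ∀ j u w, β (lrtop_T N (ZMod p) (ZMod p) (ℓ j) u) w =
      β u (lrtop_T N (ZMod p) (ZMod p) (ℓ j) w))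
    (g : gh_H N →+ ℂ) (hg0 : g ≠ 0) (b : J → integralClosure ℤ ℂ)
    (hgb : ∀ j, g.comp (t2f_TH N (ℓ j)).toAddMonoidHom = ((b j : integralClosure ℤ ℂ) : ℂ) • g)
    (𝔪 : Ideal (integralClosure ℤ ℂ)) (h𝔪 : 𝔪 ≠ ⊤) (hp𝔪 : ((p : ℕ) : integralClosure ℤ ℂ) ∈ 𝔪)
    (hb : ∀ j, b j - ((a j : ℤ) : integralClosure ℤ ℂ) ∈ 𝔪) :
    ∃ v : gh_H N →+ ZMod p, v ≠ 0 ∧
      ∀ j, v.comp (t2f_TH N (ℓ j)).toAddMonoidHom = ((a j : ℤ) : ZMod p) • v := by
  have key := lrrd_main (I := J) (p := p) a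
    (Λ := gh_H N →+ ℤ) (fun j => (lrtop_T N ℤ ℤ (ℓ j)).toAddMonoidHom)
    (W := gh_H N →+ ℂ) (fun j => lrtop_T N ℂ ℂ (ℓ j))
    (fun l l' => LinearMap.ext fun ψ => lrtop_T_comm ℂ ℂ (ℓ l) (ℓ l') ψ)
    (lrtop_post (Int.castAddHom ℂ)) lrtop_cplx_injective (fun l y => rfl)
    g hg0 (by rw [lrtop_span_top]; exact Submodule.mem_top) b hgb 𝔪 h𝔪 hp𝔪 hb
    (V := gh_H N →+ ZMod p) (lrtop_post (Int.castAddHom (ZMod p)))
    (lrtop_post_surjective _ (ZMod.intCast_surjective))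
    (fun w hw => lrtop_red_ker p w hw)
    (fun j => lrtop_T N (ZMod p) (ZMod p) (ℓ j)) (fun l w => rfl)
    β (lrrb_surj_of_nondeg β hβnd) hβnd hβt
  exact key

end Fermat.Agent.LR
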