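/-
LR / node [TOP] (helper21), part 6 (= step (T3)): Deligne–Serre lifting inside
`B = ker(i† : Hom(gh_H (N q), ℤ) → Hom(gh_H N, ℤ)²)`; instance of helper15's `lrlf_main`.
Prefix `lrtop_`.
-/
import Mathlib
import Fermat.Agent.LR.Rib.Lift
import Fermat.Agent.LR.Top.Ops

set_option autoImplicit false
set_option linter.unusedSectionVars false

noncomputable section

open CongruenceSubgroup
open Fermat.Agent.JT3

namespace Fermat.Agent.LR

theorem lrtop_lift {p N q : ℕ} [NeZero N] [NeZero (N * q)] (hp : p.Prime) [Fact q.Prime]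
    (hqN : ¬ q ∣ N) {I : Type*} (ℓ : I → ℕ) (hℓ : ∀ i, (ℓ i).Prime) (hℓNq : ∀ i, ¬ ℓ i ∣ N * q)
    (a : I → ℤ)
    (x : gh_H (N * q) →+ ℤ) (hxA : x.comp (lrh_At hqN) = 0) (hxB : x.comp (lrh_Bt hqN) = 0)
    (hx0 : lrtop_post (Int.castAddHom (ZMod p)) x ≠ 0)
    (hxeig : ∀ i,
      (lrtop_post (Int.castAddHom (ZMod p)) x).comp (t2f_TH (N * q) (ℓ i)).toAddMonoidHom =
        ((a i : ℤ) : ZMod p) • lrtop_post (Int.castAddHom (ZMod p)) x) :
    ∃ (Θ : gh_H (N * q) →+ ℂ) (b : I → integralClosure ℤ ℂ) (𝔪' : Ideal (integralClosure ℤ ℂ)),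
      Θ ≠ 0 ∧ Θ.comp (lrh_At hqN) = 0 ∧ Θ.comp (lrh_Bt hqN) = 0 ∧
      (∀ i, Θ.comp (t2f_TH (N * q) (ℓ i)).toAddMonoidHom =
        ((b i : integralClosure ℤ ℂ) : ℂ) • Θ) ∧
      𝔪'.IsMaximal ∧ ((p : ℕ) : integralClosure ℤ ℂ) ∈ 𝔪' ∧
      ∀ i, b i - ((a i : ℤ) : integralClosure ℤ ℂ) ∈ 𝔪' := by
  classical
  haveI : Fact p.Prime := ⟨hp⟩
  have hp0 : (p : ℤ) ≠ 0 := by exact_mod_cast hp.ne_zero
  let L' := gh_H (N * q) →+ ℤ
  let W := gh_H (N * q) →+ ℂ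
  let r' : L' →+ (gh_H (N * q) →+ ZMod p) := lrtop_post (Int.castAddHom (ZMod p))
  let idag : L' →ₗ[ℤ] (gh_H N →+ ℤ) × (gh_H N →+ ℤ) := (lrh_idag hqN ℤ).toIntLinearMap
  let B : Submodule ℤ L' := LinearMap.ker idag
  have hBmem : ∀ y : L', y ∈ B ↔ lrh_idag hqN ℤ y = 0 := fun y => LinearMap.mem_ker
  have hstab : ∀ i, ∀ y ∈ B, lrtop_T (N * q) ℤ ℤ (ℓ i) y ∈ B := by
    intro i y hy
    rw [hBmem] at hy ⊢
    rw [lrtop_T_apply, lrtop_idag_T hqN (hℓ i) (hℓNq i) ℤ y, hy]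
    rfl
  let tB : I → Module.End ℤ B := fun i => (lrtop_T (N * q) ℤ ℤ (ℓ i)).restrict (hstab i)
  let tW : I → Module.End ℂ W := fun i => lrtop_T (N * q) ℂ ℂ (ℓ i)
  let j : B →+ W := (lrtop_post (Int.castAddHom ℂ)).comp B.subtype.toAddMonoidHom
  have hj : Function.Injective j := by
    intro y y' h
    exact Subtype.ext (lrtop_cplx_injective h)
  have hxB' : x ∈ B := by
    rw [hBmem]
    exact Prod.ext hxA hxB
  have hptf : ∀ w : (gh_H N →+ ℤ) × (gh_H N →+ ℤ), (p : ℤ) • w = 0 → w = 0 := fun w hw =>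
    Prod.ext (lrtop_int_tf (p : ℤ) hp0 w.1 (congrArg Prod.fst hw))
      (lrtop_int_tf (p : ℤ) hp0 w.2 (congrArg Prod.snd hw))
  have hpV : ∀ z : gh_H (N * q) →+ ZMod p, (p : ℤ) • z = 0 := by
    intro z
    rw [← Int.cast_smul_eq_zsmul (ZMod p), Int.cast_natCast, ZMod.natCast_self, zero_smul]
  obtain ⟨Θ, b, 𝔪', hΘspan, hΘ0, hΘb, hmax, hpm, hb⟩ := lrlf_main (I := I) hp a
    (B := B) tB (W := W) tW
    (fun l l' => LinearMap.ext fun ψ => lrtop_T_comm ℂ ℂ (ℓ l) (ℓ l') ψ)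
    j hj (fun l y => rfl) ⟨x, hxB'⟩
    (by
      intro y hy
      apply hx0
      have h1 : x = (p : ℤ) • (y : L') := congrArg Subtype.val hy
      show r' x = 0
      rw [h1, map_zsmul, hpV])
    (by
      intro l
      set d : L' := lrtop_T (N * q) ℤ ℤ (ℓ l) x - a l • x with hd
      have hdB : d ∈ B := B.sub_mem (hstab l x hxB') (B.smul_mem _ hxB')
      have hrd : r' d = 0 := by
        rw [hd, map_sub, map_zsmul]
        have h1 : r' (lrtop_T (N * q) ℤ ℤ (ℓ l) x) =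
            (r' x).comp (t2f_TH (N * q) (ℓ l)).toAddMonoidHom := rfl
        rw [h1, hxeig l, Int.cast_smul_eq_zsmul, sub_self]
      obtain ⟨y0, hy0⟩ := lrtop_red_ker p d hrd
      have hy0B : y0 ∈ B := by
        rw [hBmem]
        apply hptf
        rw [← map_zsmul, ← hy0]
        exact (hBmem d).mp hdB
      exact ⟨⟨y0, hy0B⟩, Subtype.ext hy0⟩)
  -- the transfers kill the complex span of `B`
  let Φ : W →ₗ[ℂ] (gh_H N →+ ℂ) × (gh_H N →+ ℂ) :=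
    LinearMap.prod (lrtop_pre ℂ ℂ (lrh_At hqN)) (lrtop_pre ℂ ℂ (lrh_Bt hqN))
  have hΦ : Submodule.span ℂ (Set.range j) ≤ LinearMap.ker Φ := by
    rw [Submodule.span_le]
    rintro _ ⟨y, rfl⟩
    rw [SetLike.mem_coe, LinearMap.mem_ker]
    have hy := (hBmem y).mp y.2
    have h1 : ((y : L').comp (lrh_At hqN)) = 0 := congrArg Prod.fst hy
    have h2 : ((y : L').comp (lrh_Bt hqN)) = 0 := congrArg Prod.snd hy
    refine Prod.ext ?_ ?_
    · show (lrtop_post (Int.castAddHom ℂ) (y : L')).comp (lrh_At hqN) = 0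
      have : (lrtop_post (Int.castAddHom ℂ) (y : L')).comp (lrh_At hqN) =
          lrtop_post (Int.castAddHom ℂ) ((y : L').comp (lrh_At hqN)) := rfl
      rw [this, h1, map_zero]
    · show (lrtop_post (Int.castAddHom ℂ) (y : L')).comp (lrh_Bt hqN) = 0
      have : (lrtop_post (Int.castAddHom ℂ) (y : L')).comp (lrh_Bt hqN) =
          lrtop_post (Int.castAddHom ℂ) ((y : L').comp (lrh_Bt hqN)) := rfl
      rw [this, h2, map_zero]
  have hΘΦ : Φ Θ = 0 := LinearMap.mem_ker.mp (hΦ hΘspan)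
  exact ⟨Θ, b, 𝔪', hΘ0, congrArg Prod.fst hΘΦ, congrArg Prod.snd hΘΦ, hΘb, hmax, hpm, hb⟩

end Fermat.Agent.LR
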