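/-
LR / node [TOP] (helper21), part 5 (= step (T1)): Ribet's lattice argument for
`L' = Hom(gh_H (N q), ℤ)`, `P = Hom(gh_H N, ℤ)²`; instance of helper15's `lrrb_main`.
Prefix `lrtop_`.
-/
import Mathlib
import Fermat.Agent.LR.Rib.Core
import Fermat.Agent.LR.Top.Ops

set_option autoImplicit false
set_option linter.unusedSectionVars false

noncomputable section

open CongruenceSubgroup
open Fermat.Agent.JT3

namespace Fermat.Agent.LR

theorem lrtop_ribet {p N q : ℕ} [NeZero N] [NeZero (N * q)] [Fact p.Prime] [Fact q.Prime]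
    (hqN : ¬ q ∣ N) {I : Type*} (ℓ : I → ℕ) (hℓ : ∀ i, (ℓ i).Prime) (hℓNq : ∀ i, ¬ ℓ i ∣ N * q)
    (a : I → ℤ)
    (β : (gh_H N →+ ZMod p) →ₗ[ZMod p] (gh_H N →+ ZMod p) →ₗ[ZMod p] ZMod p)
    (hβnd : ∀ u, (∀ w, β u w = 0) → u = 0)
    (hβt : ∀ i u w, β (lrtop_T N (ZMod p) (ZMod p) (ℓ i) u) w =
      β u (lrtop_T N (ZMod p) (ZMod p) (ℓ i) w))
    (β' : (gh_H (N * q) →+ ZMod p) →ₗ[ZMod p] (gh_H (N * q) →+ ZMod p) →ₗ[ZMod p] ZMod p)
    (hβ'nd : ∀ y, (∀ z, β' y z = 0) → y = 0)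
    (hadjA : ∀ (ψ : gh_H N →+ ZMod p) (z : gh_H (N * q) →+ ZMod p),
      β' (ψ.comp (lrh_A N q)) z = β ψ (z.comp (lrh_At hqN)))
    (hadjB : ∀ (ψ : gh_H N →+ ZMod p) (z : gh_H (N * q) →+ ZMod p),
      β' (ψ.comp (lrh_B hqN)) z = β ψ (z.comp (lrh_Bt hqN)))
    (hIh : ∀ u : (gh_H N →+ ZMod p) × (gh_H N →+ ZMod p),
      (∀ i, u.1.comp (t2f_TH N (ℓ i)).toAddMonoidHom = ((a i : ℤ) : ZMod p) • u.1 ∧
        u.2.comp (t2f_TH N (ℓ i)).toAddMonoidHom = ((a i : ℤ) : ZMod p) • u.2) →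
      lrh_i hqN (ZMod p) u = 0 → u = 0)
    (v : gh_H N →+ ZMod p) (hv0 : v ≠ 0)
    (hveig : ∀ i, v.comp (t2f_TH N (ℓ i)).toAddMonoidHom = ((a i : ℤ) : ZMod p) • v)
    (ε : ZMod p) (hε : ε * ε = 1)
    (hvq : v.comp (t2e_TH hqN) = (ε * ((q : ZMod p) + 1)) • v) :
    ∃ x : gh_H (N * q) →+ ℤ, x.comp (lrh_At hqN) = 0 ∧ x.comp (lrh_Bt hqN) = 0 ∧
      lrtop_post (Int.castAddHom (ZMod p)) x ≠ 0 ∧
      ∀ i, (lrtop_post (Int.castAddHom (ZMod p)) x).comp (t2f_TH (N * q) (ℓ i)).toAddMonoidHom =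
        ((a i : ℤ) : ZMod p) • lrtop_post (Int.castAddHom (ZMod p)) x := by
  classical
  -- abbreviations
  let K := ZMod p
  let VN := gh_H N →+ ZMod p
  let VNq := gh_H (N * q) →+ ZMod p
  let ΛN := gh_H N →+ ℤ
  let rN : ΛN →+ VN := lrtop_post (Int.castAddHom (ZMod p))
  let r' : (gh_H (N * q) →+ ℤ) →+ VNq := lrtop_post (Int.castAddHom (ZMod p))
  let r : ΛN × ΛN →+ VN × VN := AddMonoidHom.prodMap rN rN
  let tL : I → (gh_H (N * q) →+ ℤ) →+ (gh_H (N * q) →+ ℤ) :=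
    fun i => (lrtop_T (N * q) ℤ ℤ (ℓ i)).toAddMonoidHom
  let tP : I → ΛN × ΛN →+ ΛN × ΛN := fun i =>
    AddMonoidHom.prodMap (lrtop_T N ℤ ℤ (ℓ i)).toAddMonoidHom (lrtop_T N ℤ ℤ (ℓ i)).toAddMonoidHom
  let tV' : I → VNq →ₗ[ZMod p] VNq := fun i => lrtop_T (N * q) (ZMod p) (ZMod p) (ℓ i)
  let tV : I → VN × VN →ₗ[ZMod p] VN × VN := fun i =>
    LinearMap.prodMap (lrtop_T N (ZMod p) (ZMod p) (ℓ i)) (lrtop_T N (ZMod p) (ZMod p) (ℓ i))
  let φbar : VNq →ₗ[ZMod p] VN × VN :=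
    LinearMap.prod (lrtop_pre (ZMod p) (ZMod p) (lrh_At hqN)) (lrtop_pre (ZMod p) (ZMod p) (lrh_Bt hqN))
  let ψbar : VN × VN →ₗ[ZMod p] VNq :=
    LinearMap.coprod (lrtop_pre (ZMod p) (ZMod p) (lrh_A N q)) (lrtop_pre (ZMod p) (ZMod p) (lrh_B hqN))
  let βP : VN × VN →ₗ[ZMod p] VN × VN →ₗ[ZMod p] ZMod p :=
    β.compl₁₂ (LinearMap.fst (ZMod p) VN VN) (LinearMap.fst (ZMod p) VN VN) +
      β.compl₁₂ (LinearMap.snd (ZMod p) VN VN) (LinearMap.snd (ZMod p) VN VN)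
  have hβP : ∀ u w : VN × VN, βP u w = β u.1 w.1 + β u.2 w.2 := fun u w => rfl
  have hψbar : ∀ u : VN × VN, ψbar u = lrh_i hqN (ZMod p) u := fun u => rfl
  have hφbar' : ∀ z : VNq, φbar z = lrh_idag hqN (ZMod p) z := fun z => rfl
  have hβPnd : ∀ u, (∀ w, βP u w = 0) → u = 0 := by
    intro u hu
    refine Prod.ext ?_ ?_
    · apply hβnd
      intro w
      have := hu (w, 0)
      rw [hβP] at this
      simpa using this
    · apply hβnd
      intro w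
      have := hu (0, w)
      rw [hβP] at this
      simpa using this
  have key := lrrb_main (I := I) (p := p) a
    (L' := gh_H (N * q) →+ ℤ) (P := ΛN × ΛN)
    (fun w hw => Prod.ext
      (lrtop_int_tf (p : ℤ) (by exact_mod_cast (Fact.out : p.Prime).ne_zero) w.1
        (congrArg Prod.fst hw))
      (lrtop_int_tf (p : ℤ) (by exact_mod_cast (Fact.out : p.Prime).ne_zero) w.2
        (congrArg Prod.snd hw)))
    (V' := VNq) (VP := VN × VN)
    r' (lrtop_post_surjective _ ZMod.intCast_surjective) (fun x hx => lrtop_red_ker p x hx)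
    r (Function.Surjective.prodMap (lrtop_post_surjective _ ZMod.intCast_surjective)
        (lrtop_post_surjective _ ZMod.intCast_surjective))
    (by
      intro w hw
      obtain ⟨y1, hy1⟩ := lrtop_red_ker p w.1 (congrArg Prod.fst hw)
      obtain ⟨y2, hy2⟩ := lrtop_red_ker p w.2 (congrArg Prod.snd hw)
      exact ⟨(y1, y2), Prod.ext hy1 hy2⟩)
    tL tP tV' tV
    (fun l l' w => Prod.ext (lrtop_T_comm ℤ ℤ (ℓ l) (ℓ l') w.1) (lrtop_T_comm ℤ ℤ (ℓ l) (ℓ l') w.2))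
    (fun l x => rfl) (fun l w => rfl)
    (lrh_idag hqN ℤ) (fun l x => lrtop_idag_T hqN (hℓ l) (hℓNq l) ℤ x)
    φbar (fun x => rfl)
    ψbar (fun l u => (lrtop_i_T hqN (hℓ l) (hℓNq l) (ZMod p) u).symm)
    βP (lrrb_surj_of_nondeg βP hβPnd) hβPnd
    (by
      intro l u w
      rw [hβP, hβP]
      exact congrArg₂ (· + ·) (hβt l u.1 w.1) (hβt l u.2 w.2))
    β' hβ'nd
    (by
      intro u z
      rw [hβP]
      show β' (u.1.comp (lrh_A N q) + u.2.comp (lrh_B hqN)) z = _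
      rw [map_add, LinearMap.add_apply, hadjA, hadjB]
      rfl)
    (by
      intro u hu hψu
      apply hIh u _ hψu
      intro i
      have := hu i
      exact ⟨congrArg Prod.fst this, congrArg Prod.snd this⟩)
    (by
      refine ⟨(v, -(ε • v)), ?_, ?_, ?_⟩
      · intro h
        exact hv0 (congrArg Prod.fst h)
      · intro l
        refine Prod.ext ?_ ?_
        · exact hveig l
        · show lrtop_T N (ZMod p) (ZMod p) (ℓ l) (-(ε • v)) = ((a l : ℤ) : ZMod p) • (-(ε • v))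
          rw [map_neg, map_smul, lrtop_T_apply, hveig l, smul_neg, smul_comm]
      · rw [hψbar, hφbar', lrh_matrix]
        have hτ : lrtop_pre (ZMod p) (ZMod p) (t2e_TH hqN) v = (ε * ((q : ZMod p) + 1)) • v := hvq
        have h1 := lrrb_hLR_prod (lrtop_pre (ZMod p) (ZMod p) (t2e_TH hqN)) ((q : ZMod p) + 1) ε
          hε v hτ
        have hc : ∀ ψ : VN, (q + 1) • ψ = ((q : ZMod p) + 1) • ψ := by
          intro ψ
          rw [← Nat.cast_smul_eq_nsmul (ZMod p) (q + 1) ψ]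
          push_cast
          rfl
        rw [hc, hc]
        exact h1)
  obtain ⟨x, hx1, hx2, hx3⟩ := key
  exact ⟨x, congrArg Prod.fst hx1, congrArg Prod.snd hx1, hx2, hx3⟩

end Fermat.Agent.LR
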