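/-
LR / node [TOP] (helper21), part 7: the assembly of S41 (Ribet's level raising) from the three seams
`lrtop_PD_stmt` ([PD]), `lrtop_ES_stmt`, `lrtop_Entry_stmt` ([ES]) and the landed nodes
[X]/[AMALG]/[IH] (Ihara's lemma, Eisenstein form), (v*) (a non-Eisenstein prime), [MTX]/[MTX+],
[RED]/[RIB]/[LIFT], [NEW]/[EIG].
Prefix `lrtop_`.
-/
import Mathlib
import Fermat.Prelude.Def_FLTPrelim_ModularRep
import Fermat.Prelude.Def_FreyPackage_LevelRaising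
import Fermat.Agent.LR.CSP.FinalClosed
import Fermat.Agent.LR.AMALG.Adapt
import Fermat.Agent.LR.IH.Glue
import Fermat.Agent.LR.NonEis.Final
import Fermat.Agent.LR.NEW.Final
import Fermat.Agent.LR.Top.Seams
import Fermat.Agent.LR.Top.Level
import Fermat.Agent.LR.Top.Ribet
import Fermat.Agent.LR.Top.Lift

set_option autoImplicit false
set_option linter.unusedSectionVars false
set_option linter.style.haveILetI false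

noncomputable section

open WeierstrassCurve WeierstrassCurve.Affine WeierstrassCurve.Affine.Point
open CongruenceSubgroup CuspForm ModularFormClass
open Fermat.Agent.JT3

namespace Fermat.Agent.LR

/-- `𝔽_p` has no prime-to-`p` torsion -/
theorem lrtop_ptors {p : ℕ} [Fact p.Prime] : csp_PTors p (ZMod p) := by
  intro n v hn hv
  rw [nsmul_eq_mul] at hv
  rcases mul_eq_zero.mp hv with h | h
  · exfalso
    have h1 : p ∣ n := (ZMod.natCast_eq_zero_iff n p).mp h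
    have h2 : p ∣ Nat.gcd n p := Nat.dvd_gcd h1 dvd_rfl
    rw [hn] at h2
    exact (Fact.out : p.Prime).one_lt.ne' (Nat.dvd_one.mp h2)
  · exact h

/-- **Ihara's lemma in the form consumed by `lrtop_ribet`**: an `a`-eigenvector in the kernel of `i`
modulo `p` vanishes, as soon as one good prime `ℓ₀` has `p ∤ ℓ₀ + 1 - a ℓ₀`. -/
theorem lrtop_ihara {p N q : ℕ} [NeZero N] [Fact p.Prime] [Fact q.Prime] (hp2 : p ≠ 2)
    (hqN : ¬ q ∣ N) (hqp : q ≠ p) {ℓ₀ : ℕ} (hℓ₀ : ℓ₀.Prime) (hℓ₀N : ¬ ℓ₀ ∣ N) (a₀ : ℤ)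
    (hnd : ¬ (p : ℤ) ∣ (ℓ₀ : ℤ) + 1 - a₀)
    (u : (gh_H N →+ ZMod p) × (gh_H N →+ ZMod p))
    (hu : u.1.comp (t2f_TH N ℓ₀).toAddMonoidHom = ((a₀ : ℤ) : ZMod p) • u.1 ∧
      u.2.comp (t2f_TH N ℓ₀).toAddMonoidHom = ((a₀ : ℤ) : ZMod p) • u.2)
    (hiu : lrh_i hqN (ZMod p) u = 0) : u = 0 := by
  haveI : Fact ℓ₀.Prime := ⟨hℓ₀⟩
  have hN : 0 < N := Nat.pos_of_ne_zero (NeZero.ne N)
  obtain ⟨e1, e2⟩ := lrih_eisenstein_H lra_amalg_stmt csp_x_closed hN hqN (Fact.out : p.Prime) hp2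
    hqp (V := ZMod p) lrtop_ptors u hiu ℓ₀ hℓ₀N
  have hc : (((ℓ₀ : ℤ) + 1 - a₀ : ℤ) : ZMod p) ≠ 0 := by
    intro h
    exact hnd ((ZMod.intCast_zmod_eq_zero_iff_dvd _ p).mp h)
  have key : ∀ w : gh_H N →+ ZMod p,
      w.comp (t2f_TH N ℓ₀).toAddMonoidHom = ((a₀ : ℤ) : ZMod p) • w →
      w.comp (t2e_TH hℓ₀N) = (ℓ₀ + 1) • w → w = 0 := by
    intro w h1 h2
    rw [lrtop_TH_eq hℓ₀ hℓ₀N, h2] at h1
    have h3 : (((ℓ₀ : ℤ) + 1 - a₀ : ℤ) : ZMod p) • w = 0 := by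
      rw [Int.cast_sub, sub_smul, ← h1, ← Nat.cast_smul_eq_nsmul (ZMod p) (ℓ₀ + 1) w]
      push_cast
      rw [sub_self]
    rcases smul_eq_zero.mp h3 with h4 | h4
    · exact absurd h4 hc
    · exact h4
  exact Prod.ext (key u.1 hu.1 e1) (key u.2 hu.2 e2)

/-- **S41 from the seams.** -/
theorem lrtop_final (hPD : lrtop_PD_stmt) (hES : lrtop_ES_stmt) (hEntry : lrtop_Entry_stmt)
    (E : WeierstrassCurve ℚ) [E.IsElliptic] {W : WeierstrassCurve ℤ} (hW : W.IsIntegralModelOf E)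
    {p N q' : ℕ} (hp : p.Prime) (hp2 : p ≠ 2) (hN : 0 < N) (hq' : q'.Prime) (hq'N : ¬ q' ∣ N)
    (hq'p : q' ≠ p)
    (hirr : GaloisRepIsIrreducible (K := AlgebraicClosure ℚ) ℚ E p)
    (f : CuspForm (CongruenceSubgroup.Gamma0 N) 2) (𝔪 : Ideal (integralClosure ℤ ℂ))
    (hf : f.IsNormalizedEigenform) (hmax : 𝔪.IsMaximal) (hpm : (p : integralClosure ℤ ℂ) ∈ 𝔪)
    (hcong : ∀ ℓ : ℕ, ℓ.Prime → W.IsGoodPrimeFor ℓ → ¬ ℓ ∣ N → ℓ ≠ p →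
      ∃ a : integralClosure ℤ ℂ, (a : ℂ) = ModularFormClass.qCoeff f ℓ ∧
        a - ((W.apOfModel ℓ : ℤ) : integralClosure ℤ ℂ) ∈ 𝔪)
    (hLR : ∃ a : integralClosure ℤ ℂ, (a : ℂ) = ModularFormClass.qCoeff f q' ∧
      a ^ 2 - ((q' : integralClosure ℤ ℂ) + 1) ^ 2 ∈ 𝔪) :
    ∃ (g : CuspForm (CongruenceSubgroup.Gamma0 (N * q')) 2) (𝔪' : Ideal (integralClosure ℤ ℂ)),
      g.IsNormalizedEigenform ∧ 𝔪'.IsMaximal ∧ (p : integralClosure ℤ ℂ) ∈ 𝔪' ∧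
      (∀ ℓ : ℕ, ℓ.Prime → W.IsGoodPrimeFor ℓ → ¬ ℓ ∣ N * q' → ℓ ≠ p →
        ∃ a : integralClosure ℤ ℂ, (a : ℂ) = ModularFormClass.qCoeff g ℓ ∧
          a - ((W.apOfModel ℓ : ℤ) : integralClosure ℤ ℂ) ∈ 𝔪') ∧
      g.IsNewAt q' := by
  classical
  haveI : NeZero N := ⟨hN.ne'⟩
  haveI : Fact q'.Prime := ⟨hq'⟩
  haveI : Fact p.Prime := ⟨hp⟩
  have hNq' : N * q' ≠ 0 := Nat.mul_ne_zero hN.ne' hq'.ne_zero
  haveI : NeZero (N * q') := ⟨hNq'⟩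
  obtain ⟨Ω, hΩnd, hΩskew, hΩA, hΩB⟩ := hPD p hp hp2
  -- the index set of good primes
  let I : Type := {ℓ : ℕ // ℓ.Prime ∧ W.IsGoodPrimeFor ℓ ∧ ¬ ℓ ∣ N * q' ∧ ℓ ≠ p}
  let ℓI : I → ℕ := fun i => i.1
  let aI : I → ℤ := fun i => W.apOfModel i.1
  have hIN : ∀ i : I, ¬ ℓI i ∣ N := fun i h => i.2.2.2.1 (Dvd.dvd.mul_right h q')
  -- the congruence data at the good primes
  have hc : ∀ i : I, ∃ b : integralClosure ℤ ℂ, (b : ℂ) = qCoeff f (ℓI i) ∧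
      b - ((aI i : ℤ) : integralClosure ℤ ℂ) ∈ 𝔪 :=
    fun i => hcong i.1 i.2.1 i.2.2.1 (hIN i) i.2.2.2.2
  choose bI hbI1 hbI2 using hc
  -- the sign at `q'`
  obtain ⟨aq, haq, hLRm⟩ := hLR
  obtain ⟨εZ, hεZ, haqε⟩ : ∃ εZ : ℤ, εZ * εZ = 1 ∧
      aq - (((εZ * ((q' : ℤ) + 1) : ℤ)) : integralClosure ℤ ℂ) ∈ 𝔪 := by
    have h1 : (aq - ((q' : integralClosure ℤ ℂ) + 1)) * (aq + ((q' : integralClosure ℤ ℂ) + 1)) ∈ 𝔪 := by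
      have : (aq - ((q' : integralClosure ℤ ℂ) + 1)) * (aq + ((q' : integralClosure ℤ ℂ) + 1)) =
          aq ^ 2 - ((q' : integralClosure ℤ ℂ) + 1) ^ 2 := by ring
      rw [this]
      exact hLRm
    rcases hmax.isPrime.mem_or_mem h1 with h2 | h2
    · refine ⟨1, by norm_num, ?_⟩
      have : (((1 * ((q' : ℤ) + 1) : ℤ)) : integralClosure ℤ ℂ) = (q' : integralClosure ℤ ℂ) + 1 := by
        push_cast
        ring
      rw [this]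
      exact h2
    · refine ⟨-1, by norm_num, ?_⟩
      have : aq - ((((-1) * ((q' : ℤ) + 1) : ℤ)) : integralClosure ℤ ℂ) =
          aq + ((q' : integralClosure ℤ ℂ) + 1) := by
        push_cast
        ring
      rw [this]
      exact h2
  -- the index set with `q'` added
  let ℓJ : Option I → ℕ := fun j => j.elim q' ℓI
  let aJ : Option I → ℤ := fun j => j.elim (εZ * ((q' : ℤ) + 1)) aI
  let bJ : Option I → integralClosure ℤ ℂ := fun j => j.elim aq bI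
  have hJp : ∀ j, (ℓJ j).Prime := by
    rintro (_ | i)
    · exact hq'
    · exact i.2.1
  have hJN : ∀ j, ¬ ℓJ j ∣ N := by
    rintro (_ | i)
    · exact hq'N
    · exact hIN i
  have hbJ1 : ∀ j, ((bJ j : integralClosure ℤ ℂ) : ℂ) = qCoeff f (ℓJ j) := by
    rintro (_ | i)
    · exact haq
    · exact hbI1 i
  have hbJ2 : ∀ j, bJ j - ((aJ j : ℤ) : integralClosure ℤ ℂ) ∈ 𝔪 := by
    rintro (_ | i)
    · exact haqε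
    · exact hbI2 i
  -- the forms
  have hself : ∀ (M : ℕ) [NeZero M] (ℓ : ℕ), ℓ.Prime → ¬ ℓ ∣ M → ∀ u w : gh_H M →+ ZMod p,
      lrtop_bil (Ω M) (lrtop_T M (ZMod p) (ZMod p) ℓ u) w =
        lrtop_bil (Ω M) u (lrtop_T M (ZMod p) (ZMod p) ℓ w) := by
    intro M _ ℓ hℓ hℓM u w
    haveI : Fact ℓ.Prime := ⟨hℓ⟩
    have hM : 0 < M := Nat.pos_of_ne_zero (NeZero.ne M)
    rw [lrtop_bil_apply, lrtop_bil_apply, lrtop_T_apply, lrtop_T_apply, lrtop_TH_eq hℓ hℓM]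
    exact lrtop_selfadj Ω hΩskew hΩA hΩB hM hℓM u w
  -- (T2): the eigenvector modulo `p` at level `N`
  obtain ⟨ψf, hψf0, hψfeig⟩ := hEntry N f hf
  obtain ⟨v, hv0, hveig⟩ := lrtop_level (p := p) (N := N) ℓJ aJ (lrtop_bil (Ω N))
    (fun u hu => hΩnd N hN u hu) (fun j u w => hself N (ℓJ j) (hJp j) (hJN j) u w)
    ψf hψf0 bJ (fun j => by rw [hψfeig (ℓJ j) (hJp j) (hJN j), hbJ1 j]) 𝔪 hmax.ne_top hpm hbJ2
  -- (T1): Ribet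
  obtain ⟨ℓ₀, hℓ₀, hgood₀, hℓ₀S, hℓ₀p, hnd₀⟩ :=
    lrv_nonEis_model E hW hp hp2 hirr (N * q').primeFactors
  have hℓ₀Nq : ¬ ℓ₀ ∣ N * q' := fun h => hℓ₀S (Nat.mem_primeFactors.mpr ⟨hℓ₀, h, hNq'⟩)
  let i₀ : I := ⟨ℓ₀, hℓ₀, hgood₀, hℓ₀Nq, hℓ₀p⟩
  obtain ⟨x, hxA, hxB, hx0, hxeig⟩ := lrtop_ribet (p := p) hq'N ℓI (fun i => i.2.1)
    (fun i => i.2.2.2.1) aI (lrtop_bil (Ω N)) (fun u hu => hΩnd N hN u hu)
    (fun i u w => hself N (ℓI i) i.2.1 (hIN i) u w)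
    (lrtop_bil (Ω (N * q'))) (fun y hy => hΩnd (N * q') (Nat.pos_of_ne_zero hNq') y hy)
    (fun ψ z => hΩA N q' hN hq'N ψ z) (fun ψ z => hΩB N q' hN hq'N ψ z)
    (fun u hu hiu => lrtop_ihara hp2 hq'N hq'p hℓ₀ (hIN i₀) (aI i₀) hnd₀ u (hu i₀) hiu)
    v hv0 (fun i => hveig (some i)) ((εZ : ℤ) : ZMod p)
    (by rw [← Int.cast_mul, hεZ, Int.cast_one])
    (by
      have h1 : v.comp (t2f_TH N q').toAddMonoidHom =
          (((εZ * ((q' : ℤ) + 1) : ℤ)) : ZMod p) • v := hveig none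
      rw [lrtop_TH_eq hq' hq'N] at h1
      rw [h1]
      congr 1
      push_cast
      rfl)
  -- (T3): lifting
  obtain ⟨Θ, b, 𝔪', hΘ0, hΘA, hΘB, hΘb, hmax', hpm', hb'⟩ := lrtop_lift hp hq'N ℓI
    (fun i => i.2.1) (fun i => i.2.2.2.1) aI x hxA hxB hx0 hxeig
  -- (T4): Eichler–Shimura
  let S : Set ℕ := {ℓ | ¬ (W.IsGoodPrimeFor ℓ ∧ ℓ ≠ p)}
  let θ : ℕ → ℂ := fun ℓ =>
    if h : ℓ.Prime ∧ W.IsGoodPrimeFor ℓ ∧ ¬ ℓ ∣ N * q' ∧ ℓ ≠ p then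
      ((b ⟨ℓ, h⟩ : integralClosure ℤ ℂ) : ℂ) else 0
  have hθ : ∀ i : I, θ i.1 = ((b i : integralClosure ℤ ℂ) : ℂ) := fun i => dif_pos i.2
  have hS : ∀ ℓ : ℕ, ℓ ∉ S → W.IsGoodPrimeFor ℓ ∧ ℓ ≠ p := fun ℓ h => not_not.mp h
  obtain ⟨g₀, hg₀, hnew, hg₀eig⟩ := hES N q' hq'N Θ hΘ0 hΘA hΘB S θ (by
    intro ℓ hℓ hℓNq hℓS
    obtain ⟨h1, h2⟩ := hS ℓ hℓS
    have := hΘb ⟨ℓ, hℓ, h1, hℓNq, h2⟩
    rw [← hθ ⟨ℓ, hℓ, h1, hℓNq, h2⟩] at this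
    exact this)
  -- (T5): the newform
  obtain ⟨g, hg, hgcoef, hgnew⟩ := lrnew_final hq'N S θ g₀ hg₀ hnew hg₀eig
  refine ⟨g, 𝔪', hg, hmax', hpm', ?_, hgnew⟩
  intro ℓ hℓ hgood hℓNq hℓp
  refine ⟨b ⟨ℓ, hℓ, hgood, hℓNq, hℓp⟩, ?_, hb' ⟨ℓ, hℓ, hgood, hℓNq, hℓp⟩⟩
  rw [hgcoef ℓ hℓ hℓNq (fun h => h ⟨hgood, hℓp⟩)]
  exact (hθ ⟨ℓ, hℓ, hgood, hℓNq, hℓp⟩).symm

end Fermat.Agent.LR
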