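/-
LR / node [TOP] (helper21), part 8: the two [ES] seams are closed (helper5's `lres_main`, helper18's
`lres_entry`); S41 from the single remaining seam `lrtop_PD_stmt` ([PD]).
Prefix `lrtop_`.
-/
import Mathlib
import Fermat.Agent.LR.ES.Pair
import Fermat.Agent.LR.ES.Entry
import Fermat.Agent.LR.Top.Final

set_option autoImplicit false
set_option linter.unusedSectionVars false

noncomputable section

open WeierstrassCurve WeierstrassCurve.Affine WeierstrassCurve.Affine.Point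
open CongruenceSubgroup CuspForm ModularFormClass
open Fermat.Agent.JT3

namespace Fermat.Agent.LR

/-- the seam [ES] is closed -/
theorem lrtop_ES_closed : lrtop_ES_stmt := by
  intro N q _ _ _ hqN Θ hΘ hA hB S θ heig
  obtain ⟨g₀, hg₀, hA', hB', hθ⟩ := lres_main hqN Θ hΘ hA hB S θ heig
  refine ⟨g₀, hg₀, ?_, hθ⟩
  rw [lrnew_mem_newSub]
  constructor
  · apply DFunLike.coe_injective
    rw [lrnew_coe_trALin, hA']
    rfl
  · apply DFunLike.coe_injective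
    rw [lrnew_coe_trBLin, hB']
    rfl

/-- the entry seam is closed -/
theorem lrtop_Entry_closed : lrtop_Entry_stmt := by
  intro N _ f hf
  obtain ⟨ψ, hψ, h⟩ := lres_entry f hf
  exact ⟨ψ, hψ, fun ℓ hℓ hℓN => h ℓ hℓ hℓN⟩

/-- **S41 from [PD] alone.** -/
theorem lrtop_final_PD (hPD : lrtop_PD_stmt)
    (E : WeierstrassCurve ℚ) [E.IsElliptic] {W : WeierstrassCurve ℤ} (hW : W.IsIntegralModelOf E)
    {p N q' : ℕ} (hp : p.Prime) (hp2 : p ≠ 2) (hN : 0 < N) (hq' : q'.Prime) (hq'N : ¬ q' ∣ N)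
    (hq'p : q' ≠ p)
    (hirr : GaloisRepIsIrreducible (K := AlgebraicClosure ℚ) ℚ E p)
    (f : CuspForm (CongruenceSubgroup.Gamma0 N) 2) (𝔪 : Ideal (integralClosure ℤ ℂ))
    (hf : f.IsNormalizedEigenform) (hmax : 𝔪.IsMaximal) (hpm : (p : integralClosure ℤ ℂ) ∈ 𝔪)
    (hcong : ∀ ℓ : ℕ, ℓ.Prime → W.IsGoodPrimeFor ℓ → ¬ ℓ ∣ N → ℓ ≠ p →
      ∃ a : integralClosure ℤ ℂ, (a : ℂ) = ModularFormClass.qCoeff f ℓ ∧
        a - ((W.apOfModel ℓ : ℤ) : integralClosure ℤ ℂ) ∈ 𝔪)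
    (hLR : ∃ a : integralClosure ℤ ℂ, (a : ℂ) = ModularFormClass.qCoeff f q' ∧
      a ^ 2 - ((q' : integralClosure ℤ ℂ) + 1) ^ 2 ∈ 𝔪) :
    ∃ (g : CuspForm (CongruenceSubgroup.Gamma0 (N * q')) 2) (𝔪' : Ideal (integralClosure ℤ ℂ)),
      g.IsNormalizedEigenform ∧ 𝔪'.IsMaximal ∧ (p : integralClosure ℤ ℂ) ∈ 𝔪' ∧
      (∀ ℓ : ℕ, ℓ.Prime → W.IsGoodPrimeFor ℓ → ¬ ℓ ∣ N * q' → ℓ ≠ p →
        ∃ a : integralClosure ℤ ℂ, (a : ℂ) = ModularFormClass.qCoeff g ℓ ∧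
          a - ((W.apOfModel ℓ : ℤ) : integralClosure ℤ ℂ) ∈ 𝔪') ∧
      g.IsNewAt q' :=
  lrtop_final hPD lrtop_ES_closed lrtop_Entry_closed E hW hp hp2 hN hq' hq'N hq'p hirr f 𝔪 hf hmax
    hpm hcong hLR

end Fermat.Agent.LR
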