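/-
LR / [TOP] sub-file (helper2): the `Hom(gh_H M, -)` algebra consumed by the instantiations of
`lrrb_main`, `lrrd_main`, `lrlf_main`.  Prefix `lrtop_ha_`.

* `lrtop_ha_post π` : postcomposition `Hom(H, A) → Hom(H, B)`;
* `lrtop_ha_red M p` : reduction `Hom(H, ℤ) → Hom(H, 𝔽_p)`: surjective, kernel `p · Hom(H, ℤ)`;
* finiteness facts;
* `lrtop_ha_pre A l` : precomposition with the Hecke operator `t2f_TH M l`, its linear versions,
  commutation, compatibility with postcomposition;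
* `lrtop_ha_cplx M` : `Hom(H, ℤ) → Hom(H, ℂ)`, injective.
-/
import Mathlib
import Fermat.Agent.JT3.Gateway.HomologyFree
import Fermat.Agent.JT3.T2.Faithful

set_option autoImplicit false

open CongruenceSubgroup Module
open Fermat.Agent.JT3

noncomputable section

namespace Fermat.Agent.LR

variable {M : ℕ}

/-! ### Postcomposition -/

/-- postcomposition with `π : A →+ B` on `Hom(H, -)` -/
def lrtop_ha_post {A B : Type*} [AddCommGroup A] [AddCommGroup B] (π : A →+ B) :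
    (gh_H M →+ A) →+ (gh_H M →+ B) :=
  AddMonoidHom.compHom π

@[simp] theorem lrtop_ha_post_apply {A B : Type*} [AddCommGroup A] [AddCommGroup B] (π : A →+ B)
    (ψ : gh_H M →+ A) (x : gh_H M) : lrtop_ha_post π ψ x = π (ψ x) := rfl

theorem lrtop_ha_post_eq_comp {A B : Type*} [AddCommGroup A] [AddCommGroup B] (π : A →+ B)
    (ψ : gh_H M →+ A) : lrtop_ha_post π ψ = π.comp ψ := rfl

theorem lrtop_ha_post_injective {A B : Type*} [AddCommGroup A] [AddCommGroup B] (π : A →+ B)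
    (hπ : Function.Injective π) : Function.Injective (lrtop_ha_post (M := M) π) := by
  intro ψ ψ' h
  refine AddMonoidHom.ext fun x => hπ ?_
  exact DFunLike.congr_fun h x

theorem lrtop_ha_post_surjective [NeZero M] {A B : Type*} [AddCommGroup A] [AddCommGroup B]
    (π : A →+ B) (hπ : Function.Surjective π) : Function.Surjective (lrtop_ha_post (M := M) π) := by
  intro ψ
  obtain ⟨ψ', hψ'⟩ := ghf_exists_lift M π hπ ψ
  exact ⟨ψ', hψ'⟩

/-! ### Reduction modulo `p` -/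

/-- reduction `Hom(H, ℤ) → Hom(H, ℤ/p)` -/
def lrtop_ha_red (M p : ℕ) : (gh_H M →+ ℤ) →+ (gh_H M →+ ZMod p) :=
  lrtop_ha_post (Int.castAddHom (ZMod p))

@[simp] theorem lrtop_ha_red_apply (p : ℕ) (ψ : gh_H M →+ ℤ) (x : gh_H M) :
    lrtop_ha_red M p ψ x = ((ψ x : ℤ) : ZMod p) := rfl

theorem lrtop_ha_red_surj [NeZero M] (p : ℕ) : Function.Surjective (lrtop_ha_red M p) :=
  lrtop_ha_post_surjective _ (ZMod.intCast_surjective)

theorem lrtop_ha_red_ker [NeZero M] (p : ℕ) (x : gh_H M →+ ℤ) (hx : lrtop_ha_red M p x = 0) :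
    ∃ y : gh_H M →+ ℤ, x = (p : ℤ) • y := by
  have hdvd : ∀ h : gh_H M, (p : ℤ) ∣ x h := by
    intro h
    have h1 : ((x h : ℤ) : ZMod p) = 0 := DFunLike.congr_fun hx h
    exact (ZMod.intCast_zmod_eq_zero_iff_dvd _ _).mp h1
  choose c hc using fun i => hdvd ((ghf_basisEquiv M).symm (Pi.single i 1))
  refine ⟨(ghf_homEquivPi M ℤ).symm c, ?_⟩
  apply (ghf_homEquivPi M ℤ).injective
  rw [map_zsmul, AddEquiv.apply_symm_apply]
  funext i
  rw [ghf_homEquivPi_apply, hc i]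
  simp

/-- reduction on pairs -/
def lrtop_ha_red2 (M p : ℕ) :
    (gh_H M →+ ℤ) × (gh_H M →+ ℤ) →+ (gh_H M →+ ZMod p) × (gh_H M →+ ZMod p) :=
  (lrtop_ha_red M p).prodMap (lrtop_ha_red M p)

@[simp] theorem lrtop_ha_red2_apply (p : ℕ) (w : (gh_H M →+ ℤ) × (gh_H M →+ ℤ)) :
    lrtop_ha_red2 M p w = (lrtop_ha_red M p w.1, lrtop_ha_red M p w.2) := rfl

theorem lrtop_ha_red2_surj [NeZero M] (p : ℕ) : Function.Surjective (lrtop_ha_red2 M p) := by
  rintro ⟨u, v⟩
  obtain ⟨u', rfl⟩ := lrtop_ha_red_surj (M := M) p u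
  obtain ⟨v', rfl⟩ := lrtop_ha_red_surj (M := M) p v
  exact ⟨(u', v'), rfl⟩

theorem lrtop_ha_red2_ker [NeZero M] (p : ℕ) (w : (gh_H M →+ ℤ) × (gh_H M →+ ℤ))
    (hw : lrtop_ha_red2 M p w = 0) : ∃ y, w = (p : ℤ) • y := by
  obtain ⟨y1, h1⟩ := lrtop_ha_red_ker p w.1 (congrArg Prod.fst hw)
  obtain ⟨y2, h2⟩ := lrtop_ha_red_ker p w.2 (congrArg Prod.snd hw)
  exact ⟨(y1, y2), Prod.ext h1 h2⟩

/-! ### Finiteness and torsion-freeness -/

theorem lrtop_ha_finite_int [NeZero M] : Module.Finite ℤ (gh_H M →+ ℤ) :=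
  Module.Finite.equiv (ghf_homEquivPi M ℤ).symm.toIntLinearEquiv

theorem lrtop_ha_finite_int2 [NeZero M] : Module.Finite ℤ ((gh_H M →+ ℤ) × (gh_H M →+ ℤ)) := by
  have := lrtop_ha_finite_int (M := M)
  infer_instance

theorem lrtop_ha_tf {A : Type*} [AddCommGroup A] [NoZeroSMulDivisors ℤ A] {n : ℤ} (hn : n ≠ 0)
    (w : gh_H M →+ A) (hw : n • w = 0) : w = 0 := by
  refine AddMonoidHom.ext fun x => ?_
  have h1 : n • w x = 0 := DFunLike.congr_fun hw x
  exact (smul_eq_zero.mp h1).resolve_left hn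

theorem lrtop_ha_tf2 {A : Type*} [AddCommGroup A] [NoZeroSMulDivisors ℤ A] {n : ℤ} (hn : n ≠ 0)
    (w : (gh_H M →+ A) × (gh_H M →+ A)) (hw : n • w = 0) : w = 0 :=
  Prod.ext (lrtop_ha_tf hn w.1 (congrArg Prod.fst hw)) (lrtop_ha_tf hn w.2 (congrArg Prod.snd hw))

/-- every additive subgroup of `Hom(H, ℤ)` is a finitely generated `ℤ`-module -/
theorem lrtop_ha_finite_sub [NeZero M] (B : AddSubgroup (gh_H M →+ ℤ)) : Module.Finite ℤ B := by
  have := lrtop_ha_finite_int (M := M)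
  have h : Module.Finite ℤ (AddSubgroup.toIntSubmodule B) := inferInstance
  exact h

theorem lrtop_ha_finite_sub2 [NeZero M] (B : AddSubgroup ((gh_H M →+ ℤ) × (gh_H M →+ ℤ))) :
    Module.Finite ℤ B := by
  have := lrtop_ha_finite_int2 (M := M)
  have h : Module.Finite ℤ (AddSubgroup.toIntSubmodule B) := inferInstance
  exact h

/-- `Hom(H, k)` is finite-dimensional over any field `k` -/
theorem lrtop_ha_finiteDimensional [NeZero M] (k : Type*) [Field k] :
    FiniteDimensional k (gh_H M →+ k) := by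
  let e : (gh_H M →+ k) ≃ₗ[k] (Fin (2 * finrank ℂ (CuspForm (Gamma0 M) 2)) → k) :=
    { (ghf_homEquivPi M k) with
      map_smul' := by
        intro c ψ
        funext i
        simp only [AddEquiv.toFun_eq_coe, ghf_homEquivPi_apply, RingHom.id_apply, Pi.smul_apply]
        rfl }
  exact Module.Finite.equiv e.symm

theorem lrtop_ha_finiteDimensional2 [NeZero M] (k : Type*) [Field k] :
    FiniteDimensional k ((gh_H M →+ k) × (gh_H M →+ k)) := by
  have := lrtop_ha_finiteDimensional (M := M) k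
  infer_instance

/-! ### Precomposition with the Hecke operators -/

/-- precomposition with `t2f_TH M l` on `Hom(H, A)` -/
def lrtop_ha_pre (M : ℕ) (A : Type*) [AddCommGroup A] (l : ℕ) : (gh_H M →+ A) →+ (gh_H M →+ A) where
  toFun ψ := ψ.comp (t2f_TH M l).toAddMonoidHom
  map_zero' := AddMonoidHom.zero_comp _
  map_add' _ _ := AddMonoidHom.add_comp _ _ _

@[simp] theorem lrtop_ha_pre_apply (A : Type*) [AddCommGroup A] (l : ℕ) (ψ : gh_H M →+ A)
    (x : gh_H M) : lrtop_ha_pre M A l ψ x = ψ (t2f_TH M l x) := rfl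

theorem lrtop_ha_pre_eq_comp (A : Type*) [AddCommGroup A] (l : ℕ) (ψ : gh_H M →+ A) :
    lrtop_ha_pre M A l ψ = ψ.comp (t2f_TH M l).toAddMonoidHom := rfl

/-- for a prime `l ∤ M` this is precomposition with `t2e_TH` -/
theorem lrtop_ha_pre_eq_TH [NeZero M] (A : Type*) [AddCommGroup A] {l : ℕ} [Fact l.Prime]
    (hlM : ¬ l ∣ M)
    (ψ : gh_H M →+ A) : lrtop_ha_pre M A l ψ = ψ.comp (t2e_TH hlM) := by
  refine AddMonoidHom.ext fun x => ?_
  rw [lrtop_ha_pre_apply, t2f_TH_apply Fact.out hlM]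
  rfl

/-- the `R`-linear version -/
def lrtop_ha_preLin (M : ℕ) (R A : Type*) [Semiring R] [AddCommGroup A] [Module R A] (l : ℕ) :
    (gh_H M →+ A) →ₗ[R] (gh_H M →+ A) where
  toFun ψ := lrtop_ha_pre M A l ψ
  map_add' _ _ := map_add _ _ _
  map_smul' _ _ := rfl

@[simp] theorem lrtop_ha_preLin_apply (R A : Type*) [Semiring R] [AddCommGroup A] [Module R A]
    (l : ℕ) (ψ : gh_H M →+ A) : lrtop_ha_preLin M R A l ψ = lrtop_ha_pre M A l ψ := rfl

/-- precomposition commutes with postcomposition -/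
theorem lrtop_ha_post_pre {A B : Type*} [AddCommGroup A] [AddCommGroup B] (π : A →+ B) (l : ℕ)
    (ψ : gh_H M →+ A) :
    lrtop_ha_post π (lrtop_ha_pre M A l ψ) = lrtop_ha_pre M B l (lrtop_ha_post π ψ) := rfl

theorem lrtop_ha_red_pre (p l : ℕ) (ψ : gh_H M →+ ℤ) :
    lrtop_ha_red M p (lrtop_ha_pre M ℤ l ψ) = lrtop_ha_pre M (ZMod p) l (lrtop_ha_red M p ψ) := rfl

/-- commutation on torsion-free coefficients -/
theorem lrtop_ha_pre_comm [NeZero M] {A : Type*} [AddCommGroup A] [NoZeroSMulDivisors ℕ A]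
    (l l' : ℕ) (ψ : gh_H M →+ A) :
    lrtop_ha_pre M A l (lrtop_ha_pre M A l' ψ) = lrtop_ha_pre M A l' (lrtop_ha_pre M A l ψ) := by
  have h := t2f_comm (N := M) l' l ψ
  refine AddMonoidHom.ext fun x => ?_
  exact DFunLike.congr_fun h x

/-- commutation on `𝔽_p`-coefficients, through the reduction -/
theorem lrtop_ha_pre_comm_zmod [NeZero M] (p l l' : ℕ) (ψ : gh_H M →+ ZMod p) :
    lrtop_ha_pre M (ZMod p) l (lrtop_ha_pre M (ZMod p) l' ψ) =
      lrtop_ha_pre M (ZMod p) l' (lrtop_ha_pre M (ZMod p) l ψ) := by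
  obtain ⟨ψ', rfl⟩ := lrtop_ha_red_surj (M := M) p ψ
  rw [← lrtop_ha_red_pre, ← lrtop_ha_red_pre, ← lrtop_ha_red_pre, ← lrtop_ha_red_pre,
    lrtop_ha_pre_comm]

/-- the commuting family of complex operators -/
theorem lrtop_ha_preLin_commute [NeZero M] (l l' : ℕ) :
    Commute (lrtop_ha_preLin M ℂ ℂ l) (lrtop_ha_preLin M ℂ ℂ l') := by
  refine LinearMap.ext fun ψ => ?_
  exact lrtop_ha_pre_comm l l' ψ

/-! ### General precomposition (for `lrh_A`, `lrh_B`, `lrh_At`, `lrh_Bt`, ...) -/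

/-- precomposition with any `t : H(M) → H(M')` -/
def lrtop_ha_preHom {M' : ℕ} (A : Type*) [AddCommGroup A] (t : gh_H M →+ gh_H M') :
    (gh_H M' →+ A) →+ (gh_H M →+ A) where
  toFun ψ := ψ.comp t
  map_zero' := AddMonoidHom.zero_comp _
  map_add' _ _ := AddMonoidHom.add_comp _ _ _

@[simp] theorem lrtop_ha_preHom_apply {M' : ℕ} (A : Type*) [AddCommGroup A]
    (t : gh_H M →+ gh_H M') (ψ : gh_H M' →+ A) : lrtop_ha_preHom A t ψ = ψ.comp t := rfl

/-- the `R`-linear version -/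
def lrtop_ha_preHomLin {M' : ℕ} (R A : Type*) [Semiring R] [AddCommGroup A] [Module R A]
    (t : gh_H M →+ gh_H M') : (gh_H M' →+ A) →ₗ[R] (gh_H M →+ A) where
  toFun ψ := ψ.comp t
  map_add' _ _ := AddMonoidHom.add_comp _ _ _
  map_smul' _ _ := rfl

@[simp] theorem lrtop_ha_preHomLin_apply {M' : ℕ} (R A : Type*) [Semiring R] [AddCommGroup A]
    [Module R A] (t : gh_H M →+ gh_H M') (ψ : gh_H M' →+ A) :
    lrtop_ha_preHomLin R A t ψ = ψ.comp t := rfl

/-- postcomposition commutes with every precomposition -/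
theorem lrtop_ha_post_comp {M' : ℕ} {A B : Type*} [AddCommGroup A] [AddCommGroup B] (π : A →+ B)
    (t : gh_H M →+ gh_H M') (ψ : gh_H M' →+ A) :
    lrtop_ha_post π (ψ.comp t) = (lrtop_ha_post π ψ).comp t := rfl

theorem lrtop_ha_red_comp {M' : ℕ} (p : ℕ) (t : gh_H M →+ gh_H M') (ψ : gh_H M' →+ ℤ) :
    lrtop_ha_red M p (ψ.comp t) = (lrtop_ha_red M' p ψ).comp t := rfl

/-! ### Complexification -/

/-- `Hom(H, ℤ) → Hom(H, ℂ)` -/
def lrtop_ha_cplx (M : ℕ) : (gh_H M →+ ℤ) →+ (gh_H M →+ ℂ) :=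
  lrtop_ha_post (Int.castAddHom ℂ)

@[simp] theorem lrtop_ha_cplx_apply (ψ : gh_H M →+ ℤ) (x : gh_H M) :
    lrtop_ha_cplx M ψ x = ((ψ x : ℤ) : ℂ) := rfl

theorem lrtop_ha_cplx_injective : Function.Injective (lrtop_ha_cplx M) :=
  lrtop_ha_post_injective _ Int.cast_injective

theorem lrtop_ha_cplx_comp {M' : ℕ} (t : gh_H M →+ gh_H M') (ψ : gh_H M' →+ ℤ) :
    lrtop_ha_cplx M (ψ.comp t) = (lrtop_ha_cplx M' ψ).comp t := rfl

theorem lrtop_ha_cplx_pre (l : ℕ) (ψ : gh_H M →+ ℤ) :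
    lrtop_ha_cplx M (lrtop_ha_pre M ℤ l ψ) = lrtop_ha_preLin M ℂ ℂ l (lrtop_ha_cplx M ψ) := rfl

/-- `Hom(H, ℂ)` is spanned by the image of `Hom(H, ℤ)` -/
theorem lrtop_ha_span_cplx [NeZero M] :
    Submodule.span ℂ (Set.range (lrtop_ha_cplx M)) = ⊤ := by
  classical
  rw [eq_top_iff]
  intro ψ _
  -- `ψ = ∑ i, ψ(e i) • (dual basis)`
  have key : ∀ i j, ((ghf_homEquivPi M ℤ).symm (Pi.single i 1))
      ((ghf_basisEquiv M).symm (Pi.single j 1)) = (Pi.single i (1 : ℤ) : _ → ℤ) j := by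
    intro i j
    rw [← ghf_homEquivPi_apply, AddEquiv.apply_symm_apply]
  have hψ : ψ = ∑ i, (ghf_homEquivPi M ℂ ψ i) •
      lrtop_ha_cplx M ((ghf_homEquivPi M ℤ).symm (Pi.single i 1)) := by
    apply (ghf_homEquivPi M ℂ).injective
    funext j
    rw [map_sum, Finset.sum_apply]
    have : ∀ i, ghf_homEquivPi M ℂ ((ghf_homEquivPi M ℂ ψ i) •
        lrtop_ha_cplx M ((ghf_homEquivPi M ℤ).symm (Pi.single i 1))) j =
        (ghf_homEquivPi M ℂ ψ i) * ((Pi.single i (1 : ℤ) : _ → ℤ) j : ℂ) := by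
      intro i
      rw [ghf_homEquivPi_apply]
      show (ghf_homEquivPi M ℂ ψ i) • ((lrtop_ha_cplx M
        ((ghf_homEquivPi M ℤ).symm (Pi.single i 1))) _) = _
      rw [lrtop_ha_cplx_apply, key]
      rfl
    simp_rw [this]
    rw [Finset.sum_eq_single j]
    · simp
    · intro i _ hij
      simp [hij.symm]
    · intro h
      exact absurd (Finset.mem_univ j) h
  rw [hψ]
  exact Submodule.sum_mem _ fun i _ =>
    Submodule.smul_mem _ _ (Submodule.subset_span ⟨_, rfl⟩)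

/-! ### Abstract glue between `lrrb_main` and `lrlf_main` -/

/-- `r' x ≠ 0` (with `p` killing the target) forbids `x = p • y` -/
theorem lrtop_ha_not_dvd {L' V' : Type*} [AddCommGroup L'] [AddCommGroup V'] (p : ℤ)
    (hpV' : ∀ v : V', p • v = 0) (r' : L' →+ V') (x : L') (hx : r' x ≠ 0) (y : L') :
    x ≠ p • y := by
  rintro rfl
  exact hx (by rw [map_zsmul, hpV'])

/-- an eigenvector modulo `p` in the kernel of an equivariant map `φ` to a `p`-torsion-free group: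
`t x - a x ∈ p · ker φ` -/
theorem lrtop_ha_ker_eig {L' P V' : Type*} [AddCommGroup L'] [AddCommGroup P] [AddCommGroup V']
    (p : ℤ) (hPtf : ∀ w : P, p • w = 0 → w = 0) (r' : L' →+ V')
    (hr'ker : ∀ x, r' x = 0 → ∃ y, x = p • y) (φ : L' →+ P) (t : L' →+ L') (tP : P →+ P)
    (hφt : ∀ x, φ (t x) = tP (φ x)) (a : ℤ) (x : L') (hx : φ x = 0)
    (h : r' (t x) = a • r' x) : ∃ y, φ y = 0 ∧ t x - a • x = p • y := by
  obtain ⟨y, hy⟩ := hr'ker (t x - a • x) (by rw [map_sub, map_zsmul, h, sub_self])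
  refine ⟨y, hPtf _ ?_, hy⟩
  rw [← map_zsmul, ← hy, map_sub, map_zsmul, hφt, hx, map_zero, smul_zero, sub_zero]

end Fermat.Agent.LR
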