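/-
LR / [TOP] sub-file (helper2): step (T2) — from an eigenform of level `N` congruent to the system
`a l` modulo `𝔪` and satisfying the level-raising congruence at `q`, a NONZERO eigenvector
`v ∈ Hom(gh_H N, 𝔽_p)` with `T_l v = a_l v` at the good primes and `T_q v = ε (q + 1) v`.

Input from [ES] (as a hypothesis): a nonzero `ψ : gh_H N →+ ℂ` with `ψ ∘ T_l = c_l ψ`.
Engine: `lrrd2_main` (helper15, no pairing) + `Top/HomAlg.lean`.  Prefix `lrtop_mp_`.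
-/
import Mathlib
import Fermat.Agent.LR.Top.HomAlg
import Fermat.Agent.LR.Rib.RedNoPair
import Fermat.Prelude.Def_FLTPrelim_Modularity

set_option autoImplicit false

open CongruenceSubgroup Module
open Fermat.Agent.JT3

noncomputable section

namespace Fermat.Agent.LR

/-- the sign in the level-raising congruence: `b² ≡ (q+1)² mod 𝔪` gives `b ≡ ε (q+1)`, `ε = ±1` -/
theorem lrtop_mp_sign (𝔪 : Ideal (integralClosure ℤ ℂ)) (hprime : 𝔪.IsPrime) (q : ℕ)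
    (b : integralClosure ℤ ℂ) (hb : b ^ 2 - ((q : integralClosure ℤ ℂ) + 1) ^ 2 ∈ 𝔪) :
    ∃ ε : ℤ, (ε = 1 ∨ ε = -1) ∧
      b - (((ε * ((q : ℤ) + 1) : ℤ)) : integralClosure ℤ ℂ) ∈ 𝔪 := by
  have h1 : b ^ 2 - ((q : integralClosure ℤ ℂ) + 1) ^ 2 =
      (b - ((q : integralClosure ℤ ℂ) + 1)) * (b + ((q : integralClosure ℤ ℂ) + 1)) := by ring
  rw [h1] at hb
  rcases hprime.mem_or_mem hb with h | h
  · refine ⟨1, Or.inl rfl, ?_⟩
    have : (((1 * ((q : ℤ) + 1) : ℤ)) : integralClosure ℤ ℂ) = (q : integralClosure ℤ ℂ) + 1 := by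
      push_cast; ring
    rw [this]; exact h
  · refine ⟨-1, Or.inr rfl, ?_⟩
    have : b - (((-1 * ((q : ℤ) + 1) : ℤ)) : integralClosure ℤ ℂ) =
        b + ((q : integralClosure ℤ ℂ) + 1) := by
      push_cast; ring
    rw [this]; exact h

/-- **(T2)**, abstract in the eigenvalue system. -/
theorem lrtop_mp_main {N p q : ℕ} [NeZero N] [Fact p.Prime] (hq : q.Prime) (hqN : ¬ q ∣ N)
    (a : ℕ → ℤ) (Good : ℕ → Prop) (hGood : ∀ l, Good l → l.Prime ∧ ¬ l ∣ N) (c : ℕ → ℂ)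
    (𝔪 : Ideal (integralClosure ℤ ℂ)) (hmax : 𝔪.IsMaximal)
    (hpm : ((p : ℕ) : integralClosure ℤ ℂ) ∈ 𝔪)
    (hcong : ∀ l, Good l → ∃ b : integralClosure ℤ ℂ, (b : ℂ) = c l ∧
      b - ((a l : ℤ) : integralClosure ℤ ℂ) ∈ 𝔪)
    (hLR : ∃ b : integralClosure ℤ ℂ, (b : ℂ) = c q ∧
      b ^ 2 - ((q : integralClosure ℤ ℂ) + 1) ^ 2 ∈ 𝔪)
    (hentry : ∃ ψ : gh_H N →+ ℂ, ψ ≠ 0 ∧ ∀ l (_ : l.Prime) (_ : ¬ l ∣ N),
      ψ.comp (t2f_TH N l).toAddMonoidHom = c l • ψ) :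
    ∃ ε : ℤ, (ε = 1 ∨ ε = -1) ∧ ∃ v : gh_H N →+ ZMod p, v ≠ 0 ∧
      (∀ l, Good l → lrtop_ha_pre N (ZMod p) l v = ((a l : ℤ) : ZMod p) • v) ∧
      lrtop_ha_pre N (ZMod p) q v = (((ε * ((q : ℤ) + 1) : ℤ)) : ZMod p) • v := by
  classical
  obtain ⟨bq, hbq, hbq2⟩ := hLR
  obtain ⟨ε, hε, hbqε⟩ := lrtop_mp_sign 𝔪 hmax.isPrime q bq hbq2
  obtain ⟨ψ, hψ0, hψ⟩ := hentry
  refine ⟨ε, hε, ?_⟩
  -- the index type
  let I := Option {l : ℕ // Good l}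
  let idx : I → ℕ := fun i => match i with
    | some l => l.1
    | none => q
  have hidx : ∀ i : I, (idx i).Prime ∧ ¬ idx i ∣ N := by
    intro i
    cases i with
    | none => exact ⟨hq, hqN⟩
    | some l => exact hGood l.1 l.2
  let a' : I → ℤ := fun i => match i with
    | some l => a l.1
    | none => ε * ((q : ℤ) + 1)
  choose bG hbG1 hbG2 using fun l : {l : ℕ // Good l} => hcong l.1 l.2
  let b : I → integralClosure ℤ ℂ := fun i => match i with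
    | some l => bG l
    | none => bq
  have hbc : ∀ i : I, ((b i : integralClosure ℤ ℂ) : ℂ) = c (idx i) := by
    intro i
    cases i with
    | none => exact hbq
    | some l => exact hbG1 l
  have hba : ∀ i : I, b i - ((a' i : ℤ) : integralClosure ℤ ℂ) ∈ 𝔪 := by
    intro i
    cases i with
    | none => exact hbqε
    | some l => exact hbG2 l
  have : Module.Finite ℤ (gh_H N →+ ℤ) := lrtop_ha_finite_int
  have : FiniteDimensional (ZMod p) (gh_H N →+ ZMod p) := lrtop_ha_finiteDimensional (ZMod p)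
  obtain ⟨v, hv0, hv⟩ := lrrd2_main (p := p) (I := I) a'
    (Λ := gh_H N →+ ℤ) (fun i => lrtop_ha_pre N ℤ (idx i))
    (W := gh_H N →+ ℂ) (fun i => lrtop_ha_preLin N ℂ ℂ (idx i))
    (fun i i' => lrtop_ha_preLin_commute (idx i) (idx i'))
    (lrtop_ha_cplx N) lrtop_ha_cplx_injective (fun i y => lrtop_ha_cplx_pre (idx i) y)
    ψ hψ0 (by rw [lrtop_ha_span_cplx]; trivial)
    b (by
      intro i
      rw [hbc i]
      exact hψ (idx i) (hidx i).1 (hidx i).2)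
    𝔪 hmax.ne_top hpm hba
    (V := gh_H N →+ ZMod p) (lrtop_ha_red N p) (lrtop_ha_red_surj p) (lrtop_ha_red_ker p)
    (fun i => lrtop_ha_preLin N (ZMod p) (ZMod p) (idx i))
    (fun i w => lrtop_ha_red_pre p (idx i) w)
  refine ⟨v, hv0, ?_, ?_⟩
  · intro l hl
    exact hv (some ⟨l, hl⟩)
  · exact hv none

/-- **(T2)** in the vocabulary of S41 (the `[ES]` entry statement is the hypothesis `hentry`). -/
theorem lrtop_mp_S41 {W : WeierstrassCurve ℤ} {p N q' : ℕ} (hp : p.Prime) (hN : 0 < N)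
    (hq' : q'.Prime) (hq'N : ¬ q' ∣ N)
    (f : CuspForm (CongruenceSubgroup.Gamma0 N) 2) (𝔪 : Ideal (integralClosure ℤ ℂ))
    (hmax : 𝔪.IsMaximal) (hpm : (p : integralClosure ℤ ℂ) ∈ 𝔪)
    (hcong : ∀ ℓ : ℕ, ℓ.Prime → W.IsGoodPrimeFor ℓ → ¬ ℓ ∣ N → ℓ ≠ p →
      ∃ a : integralClosure ℤ ℂ, (a : ℂ) = ModularFormClass.qCoeff f ℓ ∧
        a - ((W.apOfModel ℓ : ℤ) : integralClosure ℤ ℂ) ∈ 𝔪)
    (hLR : ∃ a : integralClosure ℤ ℂ, (a : ℂ) = ModularFormClass.qCoeff f q' ∧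
      a ^ 2 - ((q' : integralClosure ℤ ℂ) + 1) ^ 2 ∈ 𝔪)
    (hentry : ∃ ψ : gh_H N →+ ℂ, ψ ≠ 0 ∧ ∀ l (_ : l.Prime) (_ : ¬ l ∣ N),
      ψ.comp (t2f_TH N l).toAddMonoidHom = ModularFormClass.qCoeff f l • ψ) :
    ∃ ε : ℤ, (ε = 1 ∨ ε = -1) ∧ ∃ v : gh_H N →+ ZMod p, v ≠ 0 ∧
      (∀ l, l.Prime → W.IsGoodPrimeFor l → ¬ l ∣ N * q' → l ≠ p →
        lrtop_ha_pre N (ZMod p) l v = ((W.apOfModel l : ℤ) : ZMod p) • v) ∧
      lrtop_ha_pre N (ZMod p) q' v = (((ε * ((q' : ℤ) + 1) : ℤ)) : ZMod p) • v := by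
  have : NeZero N := ⟨hN.ne'⟩
  have : Fact p.Prime := ⟨hp⟩
  obtain ⟨ε, hε, v, hv0, hv, hvq⟩ := lrtop_mp_main (N := N) (p := p) hq' hq'N
    (fun l => W.apOfModel l)
    (fun l => l.Prime ∧ W.IsGoodPrimeFor l ∧ ¬ l ∣ N * q' ∧ l ≠ p)
    (fun l hl => ⟨hl.1, fun h => hl.2.2.1 (Dvd.dvd.mul_right h q')⟩)
    (fun l => ModularFormClass.qCoeff f l) 𝔪 hmax hpm
    (fun l hl => hcong l hl.1 hl.2.1 (fun h => hl.2.2.1 (Dvd.dvd.mul_right h q')) hl.2.2.2)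
    hLR hentry
  exact ⟨ε, hε, v, hv0, fun l h1 h2 h3 h4 => hv l ⟨h1, h2, h3, h4⟩, hvq⟩

/-- pointwise form of an eigen-equation for `lrtop_ha_pre`, in `t2e_TH` language -/
theorem lrtop_mp_pointwise {N p l : ℕ} [NeZero N] [Fact l.Prime] (hlN : ¬ l ∣ N)
    (v : gh_H N →+ ZMod p) (c : ZMod p) (h : lrtop_ha_pre N (ZMod p) l v = c • v) (x : gh_H N) :
    v (t2e_TH hlN x) = c * v x := by
  have h1 := DFunLike.congr_fun h x
  rw [lrtop_ha_pre_eq_TH (ZMod p) hlN] at h1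
  exact h1

end Fermat.Agent.LR
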