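/-
LR / node [TOP] (helper21), part 9: the seam `lrtop_PD_stmt` from helper4's subgroup-level interface
`lrpd_SFam (ZMod p)` (through helper1's `lrpd_pa_theory` and `lrpd_ad_Om`).
Prefix `lrtop_`.
-/
import Mathlib
import Fermat.Agent.LR.PD.Pairs
import Fermat.Agent.LR.Top.Seams

set_option autoImplicit false
set_option linter.unusedSectionVars false

noncomputable section

open CongruenceSubgroup
open Fermat.Agent.JT3

namespace Fermat.Agent.LR

/-- a bilinear form, as a biadditive one -/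
def lrtop_biadd {p : ℕ} {V : Type*} [AddCommGroup V] [Module (ZMod p) V]
    (β : V →ₗ[ZMod p] V →ₗ[ZMod p] ZMod p) : V →+ V →+ ZMod p where
  toFun x := (β x).toAddMonoidHom
  map_zero' := by
    refine AddMonoidHom.ext fun y => ?_
    simp
  map_add' x x' := by
    refine AddMonoidHom.ext fun y => ?_
    simp

@[simp] theorem lrtop_biadd_apply {p : ℕ} {V : Type*} [AddCommGroup V] [Module (ZMod p) V]
    (β : V →ₗ[ZMod p] V →ₗ[ZMod p] ZMod p) (x y : V) : lrtop_biadd β x y = β x y := rfl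

/-- **[PD] seam from the subgroup-level family.** -/
theorem lrtop_PD_of_SFam
    (h : ∀ (p : ℕ) [Fact p.Prime], p ≠ 2 → Nonempty (lrpd_SFam (ZMod p))) : lrtop_PD_stmt := by
  intro p hp hp2
  have : Fact p.Prime := ⟨hp⟩
  obtain ⟨S⟩ := h p hp2
  have hOm := lrpd_pa_theory S
  refine ⟨fun M => lrtop_biadd (lrpd_ad_Om hOm M), ?_, ?_, ?_, ?_⟩
  · intro M _ x hx
    exact lrpd_ad_Om_nondeg hOm M x hx
  · intro M _ x y
    exact lrpd_ad_Om_skew hOm M x y
  · intro M r _ _ hrM ψ z
    exact lrpd_ad_Om_adj_A hOm M r hrM ψ z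
  · intro M r _ _ hrM ψ z
    exact lrpd_ad_Om_adj_B hOm M r hrM ψ z

end Fermat.Agent.LR
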