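/-
LR / [TOP] sub-file (helper15): steps (T1)+(T3) of the assembly of S41 in `gh_H` language.

* `lrtop_rb_T3` : from `x ∈ ker(i†) ⊆ Hom(H(Nq), ℤ)` with nonzero reduction which is an
  `a`-eigenvector modulo `p` to a complex eigenvector `Θ ∈ ker(i†) ⊗ ℂ` whose eigenvalues are
  congruent to `a` modulo a maximal ideal over `p` (instantiation of `lrlf_main`);
* `lrtop_rb_T1` : Ribet's lattice argument (instantiation of `lrrb_main`): from the duality pairings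
  `Om M` on `Hom(H(M), 𝔽_p)` ((DUAL): bi-additive, left-nondegenerate, skew, ADJ-A, ADJ-B), Ihara's
  lemma (IHARA) and an `a`-eigenvector `v ∈ Hom(H(N), 𝔽_p)` with `T_q v = ε (q+1) v`, such an `x`;
* `lrtop_rb_main` : the composition.
Prefix `lrtop_rb_`.
-/
import Mathlib
import Fermat.Agent.LR.Top.HomAlg
import Fermat.Agent.LR.Top.Adj7
import Fermat.Agent.LR.MTX.EquivHom
import Fermat.Agent.LR.Rib.Core

set_option autoImplicit false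

open CongruenceSubgroup Module
open Fermat.Agent.JT3

noncomputable section

namespace Fermat.Agent.LR

/-! ### (T3): Deligne–Serre lifting from `ker(i†)` -/

/-- `i†` over any coefficients is equivariant for `lrtop_ha_pre` at a prime `l ∤ N q` -/
theorem lrtop_rb_idag_pre {N q : ℕ} [NeZero N] [Fact q.Prime] (hqN : ¬ q ∣ N) {l : ℕ}
    (hl : l.Prime) (hlNq : ¬ l ∣ N * q) (A : Type*) [AddCommGroup A] (y : gh_H (N * q) →+ A) :
    lrh_idag hqN A (lrtop_ha_pre (N * q) A l y) =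
      (lrtop_ha_pre N A l (lrh_idag hqN A y).1, lrtop_ha_pre N A l (lrh_idag hqN A y).2) := by
  have : Fact l.Prime := ⟨hl⟩
  have : NeZero (N * q) := ⟨Nat.mul_ne_zero (NeZero.ne N) (Fact.out : q.Prime).ne_zero⟩
  have hlN : ¬ l ∣ N := fun h => hlNq (Dvd.dvd.mul_right h q)
  rw [lrtop_ha_pre_eq_TH A hlNq, lrtop_ha_pre_eq_TH A hlN, lrtop_ha_pre_eq_TH A hlN]
  exact lre_idag_TH hqN hlN hlNq A y

/-- `i` over any coefficients is equivariant for `lrtop_ha_pre` at a prime `l ∤ N q` -/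
theorem lrtop_rb_i_pre {N q : ℕ} [NeZero N] [Fact q.Prime] (hqN : ¬ q ∣ N) {l : ℕ}
    (hl : l.Prime) (hlNq : ¬ l ∣ N * q) (A : Type*) [AddCommGroup A]
    (u : (gh_H N →+ A) × (gh_H N →+ A)) :
    lrtop_ha_pre (N * q) A l (lrh_i hqN A u) =
      lrh_i hqN A (lrtop_ha_pre N A l u.1, lrtop_ha_pre N A l u.2) := by
  have : Fact l.Prime := ⟨hl⟩
  have : NeZero (N * q) := ⟨Nat.mul_ne_zero (NeZero.ne N) (Fact.out : q.Prime).ne_zero⟩
  have hlN : ¬ l ∣ N := fun h => hlNq (Dvd.dvd.mul_right h q)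
  rw [lrtop_ha_pre_eq_TH A hlNq, lrtop_ha_pre_eq_TH A hlN, lrtop_ha_pre_eq_TH A hlN]
  exact lre_i_TH hqN hlN hlNq A u

/-- **(T3)** -/
theorem lrtop_rb_T3 {N q p : ℕ} [NeZero N] [Fact q.Prime] [Fact p.Prime] (hqN : ¬ q ∣ N)
    (a : ℕ → ℤ) (Good : ℕ → Prop) (hGood : ∀ l, Good l → l.Prime ∧ ¬ l ∣ N * q)
    (x : gh_H (N * q) →+ ℤ) (hxφ : lrh_idag hqN ℤ x = 0)
    (hx0 : lrtop_ha_red (N * q) p x ≠ 0)
    (hxeig : ∀ l, Good l → lrtop_ha_pre (N * q) (ZMod p) l (lrtop_ha_red (N * q) p x) =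
      ((a l : ℤ) : ZMod p) • lrtop_ha_red (N * q) p x) :
    ∃ (Θ : gh_H (N * q) →+ ℂ) (b : ℕ → integralClosure ℤ ℂ)
      (𝔪' : Ideal (integralClosure ℤ ℂ)),
      Θ ≠ 0 ∧ Θ.comp (lrh_At hqN) = 0 ∧ Θ.comp (lrh_Bt hqN) = 0 ∧
      (∀ l, Good l → Θ.comp (t2f_TH (N * q) l).toAddMonoidHom =
        ((b l : integralClosure ℤ ℂ) : ℂ) • Θ) ∧
      𝔪'.IsMaximal ∧ ((p : ℕ) : integralClosure ℤ ℂ) ∈ 𝔪' ∧
      ∀ l, Good l → b l - ((a l : ℤ) : integralClosure ℤ ℂ) ∈ 𝔪' := by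
  classical
  have hp : p.Prime := Fact.out
  have hq : q.Prime := Fact.out
  have : NeZero (N * q) := ⟨Nat.mul_ne_zero (NeZero.ne N) hq.ne_zero⟩
  have hpz : ((p : ℕ) : ℤ) ≠ 0 := by exact_mod_cast hp.ne_zero
  -- the lattice `B = ker i†`
  let φ : (gh_H (N * q) →+ ℤ) →+ (gh_H N →+ ℤ) × (gh_H N →+ ℤ) := lrh_idag hqN ℤ
  let B : AddSubgroup (gh_H (N * q) →+ ℤ) := φ.ker
  have : Module.Finite ℤ B := lrtop_ha_finite_sub B
  have : FiniteDimensional ℂ (gh_H (N * q) →+ ℂ) := lrtop_ha_finiteDimensional ℂ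
  let I := {l : ℕ // Good l}
  have hφt : ∀ (l : I) (y : gh_H (N * q) →+ ℤ), φ (lrtop_ha_pre (N * q) ℤ l.1 y) =
      ((lrtop_ha_pre N ℤ l.1).prodMap (lrtop_ha_pre N ℤ l.1)) (φ y) := fun l y =>
    lrtop_rb_idag_pre hqN (hGood l.1 l.2).1 (hGood l.1 l.2).2 ℤ y
  have hstab : ∀ (l : I) (y : gh_H (N * q) →+ ℤ), y ∈ B → lrtop_ha_pre (N * q) ℤ l.1 y ∈ B := by
    intro l y hy
    rw [AddMonoidHom.mem_ker] at hy ⊢
    rw [hφt, hy, map_zero]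
  let tB : I → Module.End ℤ B := fun l =>
    (((lrtop_ha_pre (N * q) ℤ l.1).comp B.subtype).codRestrict B
      (fun y => hstab l y y.2)).toIntLinearMap
  have htB : ∀ (l : I) (y : B), ((tB l y : B) : gh_H (N * q) →+ ℤ) =
      lrtop_ha_pre (N * q) ℤ l.1 y := fun l y => rfl
  let tW : I → Module.End ℂ (gh_H (N * q) →+ ℂ) := fun l => lrtop_ha_preLin (N * q) ℂ ℂ l.1
  let j : B →+ (gh_H (N * q) →+ ℂ) := (lrtop_ha_cplx (N * q)).comp B.subtype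
  have hj : Function.Injective j := fun y y' h =>
    Subtype.ext (lrtop_ha_cplx_injective h)
  have hjt : ∀ (l : I) (y : B), j (tB l y) = tW l (j y) := fun l y =>
    lrtop_ha_cplx_pre l.1 (y : gh_H (N * q) →+ ℤ)
  let xB : B := ⟨x, (AddMonoidHom.mem_ker).mpr hxφ⟩
  have hpV' : ∀ w : gh_H (N * q) →+ ZMod p, ((p : ℕ) : ℤ) • w = 0 := by
    intro w
    rw [← Int.cast_smul_eq_zsmul (ZMod p), Int.cast_natCast, ZMod.natCast_self, zero_smul]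
  have hxnd : ∀ y : B, xB ≠ ((p : ℕ) : ℤ) • y := by
    intro y h
    have h1 : x = ((p : ℕ) : ℤ) • (y : gh_H (N * q) →+ ℤ) := congrArg Subtype.val h
    exact lrtop_ha_not_dvd ((p : ℕ) : ℤ) hpV' (lrtop_ha_red (N * q) p) x hx0 y h1
  have hxe : ∀ l : I, ∃ y : B, tB l xB - a l.1 • xB = ((p : ℕ) : ℤ) • y := by
    intro l
    obtain ⟨y, hy0, hy⟩ := lrtop_ha_ker_eig ((p : ℕ) : ℤ)
      (fun w hw => lrtop_ha_tf2 hpz w hw) (lrtop_ha_red (N * q) p) (lrtop_ha_red_ker p)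
      φ (lrtop_ha_pre (N * q) ℤ l.1)
      ((lrtop_ha_pre N ℤ l.1).prodMap (lrtop_ha_pre N ℤ l.1)) (hφt l) (a l.1) x hxφ
      (by
        rw [lrtop_ha_red_pre, hxeig l.1 l.2, Int.cast_smul_eq_zsmul])
    exact ⟨⟨y, (AddMonoidHom.mem_ker).mpr hy0⟩, Subtype.ext hy⟩
  obtain ⟨g, b, 𝔪', hgspan, hg0, hgeig, hmax, hpm, hba⟩ :=
    lrlf_main hp (fun l : I => a l.1) tB tW
      (fun l l' => lrtop_ha_preLin_commute l.1 l'.1) j hj hjt xB hxnd hxe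
  refine ⟨g, fun l => if h : Good l then b ⟨l, h⟩ else 0, 𝔪', hg0, ?_, ?_, ?_, hmax, hpm, ?_⟩
  · -- `g ∘ Aᵗ = 0`
    have hle : Submodule.span ℂ (Set.range j) ≤
        LinearMap.ker (lrtop_ha_preHomLin ℂ ℂ (lrh_At hqN)) := by
      rw [Submodule.span_le]
      rintro _ ⟨y, rfl⟩
      rw [SetLike.mem_coe, LinearMap.mem_ker, lrtop_ha_preHomLin_apply]
      have h1 : φ (y : gh_H (N * q) →+ ℤ) = 0 := (AddMonoidHom.mem_ker).mp y.2
      have h2 : (y : gh_H (N * q) →+ ℤ).comp (lrh_At hqN) = 0 := congrArg Prod.fst h1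
      show (lrtop_ha_cplx (N * q) (y : gh_H (N * q) →+ ℤ)).comp (lrh_At hqN) = 0
      rw [← lrtop_ha_cplx_comp, h2, map_zero]
    exact LinearMap.mem_ker.mp (hle hgspan)
  · -- `g ∘ Bᵗ = 0`
    have hle : Submodule.span ℂ (Set.range j) ≤
        LinearMap.ker (lrtop_ha_preHomLin ℂ ℂ (lrh_Bt hqN)) := by
      rw [Submodule.span_le]
      rintro _ ⟨y, rfl⟩
      rw [SetLike.mem_coe, LinearMap.mem_ker, lrtop_ha_preHomLin_apply]
      have h1 : φ (y : gh_H (N * q) →+ ℤ) = 0 := (AddMonoidHom.mem_ker).mp y.2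
      have h2 : (y : gh_H (N * q) →+ ℤ).comp (lrh_Bt hqN) = 0 := congrArg Prod.snd h1
      show (lrtop_ha_cplx (N * q) (y : gh_H (N * q) →+ ℤ)).comp (lrh_Bt hqN) = 0
      rw [← lrtop_ha_cplx_comp, h2, map_zero]
    exact LinearMap.mem_ker.mp (hle hgspan)
  · intro l hl
    beta_reduce
    rw [dif_pos hl]
    exact hgeig ⟨l, hl⟩
  · intro l hl
    beta_reduce
    rw [dif_pos hl]
    exact hba ⟨l, hl⟩

/-! ### (T1): Ribet's lattice argument -/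

/-- a bi-additive function on `𝔽_p`-spaces as a bilinear map -/
def lrtop_rb_bil {p : ℕ} {V V' : Type*} [AddCommGroup V] [Module (ZMod p) V] [AddCommGroup V']
    [Module (ZMod p) V'] (f : V → V' → ZMod p)
    (hL : ∀ x x' z, f (x + x') z = f x z + f x' z)
    (hR : ∀ x z z', f x (z + z') = f x z + f x z') : V →ₗ[ZMod p] V' →ₗ[ZMod p] ZMod p :=
  AddMonoidHom.toZModLinearMap p
    (AddMonoidHom.mk'
      (fun x => AddMonoidHom.toZModLinearMap p (AddMonoidHom.mk' (f x) (hR x)))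
      (fun x x' => LinearMap.ext fun z => hL x x' z))

@[simp] theorem lrtop_rb_bil_apply {p : ℕ} {V V' : Type*} [AddCommGroup V] [Module (ZMod p) V]
    [AddCommGroup V'] [Module (ZMod p) V'] (f : V → V' → ZMod p)
    (hL : ∀ x x' z, f (x + x') z = f x z + f x' z)
    (hR : ∀ x z z', f x (z + z') = f x z + f x z') (x : V) (z : V') :
    lrtop_rb_bil f hL hR x z = f x z := rfl

/-- a bi-additive function vanishes at `0` on the right -/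
theorem lrtop_rb_zero_right {V V' F : Type*} [AddCommGroup V] [AddCommGroup V'] [AddCommGroup F]
    (f : V → V' → F) (hR : ∀ x z z', f x (z + z') = f x z + f x z') (x : V) : f x 0 = 0 := by
  have h := hR x 0 0
  rw [add_zero] at h
  exact left_eq_add.mp h

/-- **(T1)** -/
theorem lrtop_rb_T1 {N q p : ℕ} [NeZero N] [Fact q.Prime] [Fact p.Prime] (hqN : ¬ q ∣ N)
    (a : ℕ → ℤ) (Good : ℕ → Prop) (hGood : ∀ l, Good l → l.Prime ∧ ¬ l ∣ N * q)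
    (Om : ∀ M : ℕ, (gh_H M →+ ZMod p) → (gh_H M →+ ZMod p) → ZMod p)
    (hOmL : ∀ M, 0 < M → ∀ x x' z, Om M (x + x') z = Om M x z + Om M x' z)
    (hOmR : ∀ M, 0 < M → ∀ x z z', Om M x (z + z') = Om M x z + Om M x z')
    (hOmnd : ∀ M, 0 < M → ∀ x, (∀ y, Om M x y = 0) → x = 0)
    (hOmskew : ∀ M, 0 < M → ∀ x y, Om M x y = - Om M y x)
    (hOmA : ∀ (r : ℕ) [Fact r.Prime] (hrN : ¬ r ∣ N) (ψ : gh_H N →+ ZMod p)
      (z : gh_H (N * r) →+ ZMod p),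
      Om (N * r) (ψ.comp (lrh_A N r)) z = Om N ψ (z.comp (lrh_At hrN)))
    (hOmB : ∀ (r : ℕ) [Fact r.Prime] (hrN : ¬ r ∣ N) (ψ : gh_H N →+ ZMod p)
      (z : gh_H (N * r) →+ ZMod p),
      Om (N * r) (ψ.comp (lrh_B hrN)) z = Om N ψ (z.comp (lrh_Bt hrN)))
    (hIh : ∀ ψ : (gh_H N →+ ZMod p) × (gh_H N →+ ZMod p), lrh_i hqN (ZMod p) ψ = 0 →
      (∀ l, Good l → lrtop_ha_pre N (ZMod p) l ψ.1 = ((a l : ℤ) : ZMod p) • ψ.1 ∧
        lrtop_ha_pre N (ZMod p) l ψ.2 = ((a l : ℤ) : ZMod p) • ψ.2) → ψ = 0)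
    (ε : ℤ) (hε : ε = 1 ∨ ε = -1) (v : gh_H N →+ ZMod p) (hv0 : v ≠ 0)
    (hv : ∀ l, Good l → lrtop_ha_pre N (ZMod p) l v = ((a l : ℤ) : ZMod p) • v)
    (hvq : lrtop_ha_pre N (ZMod p) q v = (((ε * ((q : ℤ) + 1) : ℤ)) : ZMod p) • v) :
    ∃ x : gh_H (N * q) →+ ℤ, lrh_idag hqN ℤ x = 0 ∧ lrtop_ha_red (N * q) p x ≠ 0 ∧
      ∀ l, Good l → lrtop_ha_pre (N * q) (ZMod p) l (lrtop_ha_red (N * q) p x) =
        ((a l : ℤ) : ZMod p) • lrtop_ha_red (N * q) p x := by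
  classical
  have hp : p.Prime := Fact.out
  have hq : q.Prime := Fact.out
  have hN0 : 0 < N := Nat.pos_of_ne_zero (NeZero.ne N)
  have hNq0 : 0 < N * q := Nat.mul_pos hN0 hq.pos
  have : NeZero (N * q) := ⟨hNq0.ne'⟩
  have hpz : ((p : ℕ) : ℤ) ≠ 0 := by exact_mod_cast hp.ne_zero
  have : Module.Finite ℤ ((gh_H N →+ ℤ) × (gh_H N →+ ℤ)) := lrtop_ha_finite_int2
  have : FiniteDimensional (ZMod p) ((gh_H N →+ ZMod p) × (gh_H N →+ ZMod p)) :=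
    lrtop_ha_finiteDimensional2 (ZMod p)
  let I := {l : ℕ // Good l}
  have hIp : ∀ l : I, l.1.Prime := fun l => (hGood l.1 l.2).1
  have hINq : ∀ l : I, ¬ l.1 ∣ N * q := fun l => (hGood l.1 l.2).2
  have hIN : ∀ l : I, ¬ l.1 ∣ N := fun l h => hINq l (Dvd.dvd.mul_right h q)
  -- the pairings
  let β : ((gh_H N →+ ZMod p) × (gh_H N →+ ZMod p)) →ₗ[ZMod p]
      ((gh_H N →+ ZMod p) × (gh_H N →+ ZMod p)) →ₗ[ZMod p] ZMod p :=
    lrtop_rb_bil (fun u w => Om N u.1 w.1 + Om N u.2 w.2)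
      (fun u u' w => by
        show Om N (u.1 + u'.1) w.1 + Om N (u.2 + u'.2) w.2 = _
        rw [hOmL N hN0, hOmL N hN0]; abel)
      (fun u w w' => by
        show Om N u.1 (w.1 + w'.1) + Om N u.2 (w.2 + w'.2) = _
        rw [hOmR N hN0, hOmR N hN0]; abel)
  have hβ : ∀ u w, β u w = Om N u.1 w.1 + Om N u.2 w.2 := fun u w => rfl
  let β' : (gh_H (N * q) →+ ZMod p) →ₗ[ZMod p] (gh_H (N * q) →+ ZMod p) →ₗ[ZMod p] ZMod p :=
    lrtop_rb_bil (Om (N * q)) (hOmL _ hNq0) (hOmR _ hNq0)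
  have hβ' : ∀ y z, β' y z = Om (N * q) y z := fun y z => rfl
  have hβnd : ∀ u, (∀ w, β u w = 0) → u = 0 := by
    intro u hu
    refine Prod.ext ?_ ?_
    · refine hOmnd N hN0 _ fun y => ?_
      have h := hu (y, 0)
      rw [hβ] at h
      rw [show ((y, 0) : (gh_H N →+ ZMod p) × (gh_H N →+ ZMod p)).2 = 0 from rfl,
        lrtop_rb_zero_right (Om N) (hOmR N hN0), add_zero] at h
      exact h
    · refine hOmnd N hN0 _ fun y => ?_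
      have h := hu (0, y)
      rw [hβ] at h
      rw [show ((0, y) : (gh_H N →+ ZMod p) × (gh_H N →+ ZMod p)).1 = 0 from rfl,
        lrtop_rb_zero_right (Om N) (hOmR N hN0), zero_add] at h
      exact h
  -- self-adjointness of `T_l` at level `N`
  have hsa : ∀ (l : I) (ψ w : gh_H N →+ ZMod p),
      Om N (lrtop_ha_pre N (ZMod p) l.1 ψ) w = Om N ψ (lrtop_ha_pre N (ZMod p) l.1 w) := by
    intro l ψ w
    have : Fact l.1.Prime := ⟨hIp l⟩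
    rw [lrtop_ha_pre_eq_TH (ZMod p) (hIN l), lrtop_ha_pre_eq_TH (ZMod p) (hIN l)]
    exact lrh7_selfadj Om (hIN l) (hOmskew N hN0)
      (hOmskew (N * l.1) (Nat.mul_pos hN0 (hIp l).pos)) (hOmA l.1 (hIN l)) (hOmB l.1 (hIN l)) ψ w
  -- the level-raising vector
  have hε2 : ((ε : ℤ) : ZMod p) * ((ε : ℤ) : ZMod p) = 1 := by
    rcases hε with rfl | rfl <;> simp
  let τ : (gh_H N →+ ZMod p) →ₗ[ZMod p] (gh_H N →+ ZMod p) :=
    lrtop_ha_preLin N (ZMod p) (ZMod p) q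
  have hτv : τ v = (((ε : ℤ) : ZMod p) * ((q : ZMod p) + 1)) • v := by
    show lrtop_ha_pre N (ZMod p) q v = _
    rw [hvq]
    push_cast
    rfl
  have hLRvec := lrrb_hLR_prod τ ((q : ZMod p) + 1) ((ε : ℤ) : ZMod p) hε2 v hτv
  set u₀ : (gh_H N →+ ZMod p) × (gh_H N →+ ZMod p) := (v, -(((ε : ℤ) : ZMod p) • v)) with hu₀
  have hu₀0 : u₀ ≠ 0 := fun h => hv0 (congrArg Prod.fst h)
  have hmat : lrh_idag hqN (ZMod p) (lrh_i hqN (ZMod p) u₀) = 0 := by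
    rw [lrh_matrix, ← lrtop_ha_pre_eq_TH (ZMod p) hqN, ← lrtop_ha_pre_eq_TH (ZMod p) hqN]
    have e1 : ((q + 1 : ℕ)) • u₀.1 = ((q : ZMod p) + 1) • u₀.1 := by
      rw [← Nat.cast_smul_eq_nsmul (ZMod p)]; push_cast; rfl
    have e2 : ((q + 1 : ℕ)) • u₀.2 = ((q : ZMod p) + 1) • u₀.2 := by
      rw [← Nat.cast_smul_eq_nsmul (ZMod p)]; push_cast; rfl
    rw [e1, e2]
    exact hLRvec
  obtain ⟨x, hx1, hx2, hx3⟩ := lrrb_main (I := I) (p := p) (fun l => a l.1)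
    (L' := gh_H (N * q) →+ ℤ) (P := (gh_H N →+ ℤ) × (gh_H N →+ ℤ))
    (fun w hw => lrtop_ha_tf2 hpz w hw)
    (V' := gh_H (N * q) →+ ZMod p) (VP := (gh_H N →+ ZMod p) × (gh_H N →+ ZMod p))
    (lrtop_ha_red (N * q) p) (lrtop_ha_red_surj p) (lrtop_ha_red_ker p)
    (lrtop_ha_red2 N p) (lrtop_ha_red2_surj p) (lrtop_ha_red2_ker p)
    (fun l => lrtop_ha_pre (N * q) ℤ l.1)
    (fun l => (lrtop_ha_pre N ℤ l.1).prodMap (lrtop_ha_pre N ℤ l.1))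
    (fun l => lrtop_ha_preLin (N * q) (ZMod p) (ZMod p) l.1)
    (fun l => (lrtop_ha_preLin N (ZMod p) (ZMod p) l.1).prodMap
      (lrtop_ha_preLin N (ZMod p) (ZMod p) l.1))
    (fun l l' w => Prod.ext (lrtop_ha_pre_comm l.1 l'.1 w.1) (lrtop_ha_pre_comm l.1 l'.1 w.2))
    (fun l x => rfl) (fun l w => rfl)
    (lrh_idag hqN ℤ)
    (fun l x => lrtop_rb_idag_pre hqN (hIp l) (hINq l) ℤ x)
    ((lrh_idag hqN (ZMod p)).toZModLinearMap p) (fun x => rfl)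
    ((lrh_i hqN (ZMod p)).toZModLinearMap p)
    (fun l u => (lrtop_rb_i_pre hqN (hIp l) (hINq l) (ZMod p) u).symm)
    β (lrrb_surj_of_nondeg β hβnd) hβnd
    (fun l u w => by
      show β (lrtop_ha_pre N (ZMod p) l.1 u.1, lrtop_ha_pre N (ZMod p) l.1 u.2) w =
        β u (lrtop_ha_pre N (ZMod p) l.1 w.1, lrtop_ha_pre N (ZMod p) l.1 w.2)
      rw [hβ, hβ, hsa, hsa])
    β' (fun y hy => hOmnd _ hNq0 y hy)
    (fun u z => lrh7_adj_i Om hqN (hOmL _ hNq0) (hOmA q hqN) (hOmB q hqN) u z)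
    (fun u hu hu0 => hIh u hu0 fun l hl =>
      ⟨congrArg Prod.fst (hu ⟨l, hl⟩), congrArg Prod.snd (hu ⟨l, hl⟩)⟩)
    ⟨u₀, hu₀0, fun l => by
      show (lrtop_ha_pre N (ZMod p) l.1 u₀.1, lrtop_ha_pre N (ZMod p) l.1 u₀.2) = _
      refine Prod.ext ?_ ?_
      · exact hv l.1 l.2
      · show lrtop_ha_pre N (ZMod p) l.1 (-(((ε : ℤ) : ZMod p) • v)) =
          ((a l.1 : ℤ) : ZMod p) • (-(((ε : ℤ) : ZMod p) • v))
        rw [map_neg, ← lrtop_ha_preLin_apply (ZMod p) (ZMod p), map_smul, lrtop_ha_preLin_apply,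
          hv l.1 l.2, smul_neg, smul_comm], hmat⟩
  exact ⟨x, hx1, hx2, fun l hl => hx3 ⟨l, hl⟩⟩

/-- **(T1)+(T3)**: from the duality pairings, Ihara's lemma and the level-raising eigenvector modulo
`p` at level `N` to a complex eigenvector in `ker(i†) ⊗ ℂ` at level `N q` with congruent
eigenvalues. -/
theorem lrtop_rb_main {N q p : ℕ} [NeZero N] [Fact q.Prime] [Fact p.Prime] (hqN : ¬ q ∣ N)
    (a : ℕ → ℤ) (Good : ℕ → Prop) (hGood : ∀ l, Good l → l.Prime ∧ ¬ l ∣ N * q)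
    (Om : ∀ M : ℕ, (gh_H M →+ ZMod p) → (gh_H M →+ ZMod p) → ZMod p)
    (hOmL : ∀ M, 0 < M → ∀ x x' z, Om M (x + x') z = Om M x z + Om M x' z)
    (hOmR : ∀ M, 0 < M → ∀ x z z', Om M x (z + z') = Om M x z + Om M x z')
    (hOmnd : ∀ M, 0 < M → ∀ x, (∀ y, Om M x y = 0) → x = 0)
    (hOmskew : ∀ M, 0 < M → ∀ x y, Om M x y = - Om M y x)
    (hOmA : ∀ (r : ℕ) [Fact r.Prime] (hrN : ¬ r ∣ N) (ψ : gh_H N →+ ZMod p)
      (z : gh_H (N * r) →+ ZMod p),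
      Om (N * r) (ψ.comp (lrh_A N r)) z = Om N ψ (z.comp (lrh_At hrN)))
    (hOmB : ∀ (r : ℕ) [Fact r.Prime] (hrN : ¬ r ∣ N) (ψ : gh_H N →+ ZMod p)
      (z : gh_H (N * r) →+ ZMod p),
      Om (N * r) (ψ.comp (lrh_B hrN)) z = Om N ψ (z.comp (lrh_Bt hrN)))
    (hIh : ∀ ψ : (gh_H N →+ ZMod p) × (gh_H N →+ ZMod p), lrh_i hqN (ZMod p) ψ = 0 →
      (∀ l, Good l → lrtop_ha_pre N (ZMod p) l ψ.1 = ((a l : ℤ) : ZMod p) • ψ.1 ∧
        lrtop_ha_pre N (ZMod p) l ψ.2 = ((a l : ℤ) : ZMod p) • ψ.2) → ψ = 0)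
    (ε : ℤ) (hε : ε = 1 ∨ ε = -1) (v : gh_H N →+ ZMod p) (hv0 : v ≠ 0)
    (hv : ∀ l, Good l → lrtop_ha_pre N (ZMod p) l v = ((a l : ℤ) : ZMod p) • v)
    (hvq : lrtop_ha_pre N (ZMod p) q v = (((ε * ((q : ℤ) + 1) : ℤ)) : ZMod p) • v) :
    ∃ (Θ : gh_H (N * q) →+ ℂ) (b : ℕ → integralClosure ℤ ℂ)
      (𝔪' : Ideal (integralClosure ℤ ℂ)),
      Θ ≠ 0 ∧ Θ.comp (lrh_At hqN) = 0 ∧ Θ.comp (lrh_Bt hqN) = 0 ∧
      (∀ l, Good l → Θ.comp (t2f_TH (N * q) l).toAddMonoidHom =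
        ((b l : integralClosure ℤ ℂ) : ℂ) • Θ) ∧
      𝔪'.IsMaximal ∧ ((p : ℕ) : integralClosure ℤ ℂ) ∈ 𝔪' ∧
      ∀ l, Good l → b l - ((a l : ℤ) : integralClosure ℤ ℂ) ∈ 𝔪' := by
  obtain ⟨x, hx1, hx2, hx3⟩ := lrtop_rb_T1 hqN a Good hGood Om hOmL hOmR hOmnd hOmskew hOmA hOmB
    hIh ε hε v hv0 hv hvq
  exact lrtop_rb_T3 hqN a Good hGood x hx1 hx2 hx3

end Fermat.Agent.LR
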