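/-
LR / [TOP] sub-file (helper2): the linear-algebra packaging of `i`, `i†` and of the Hecke
precompositions on `Hom(gh_H N, -)²` and `Hom(gh_H (N q), -)`, in the shapes of `lrrb_main`,
and the level-raising vector `u = (v, -ε v)`.  Prefix `lrtop_vc_`.
-/
import Mathlib
import Fermat.Agent.LR.Top.HomAlg
import Fermat.Agent.LR.MTX.EquivHom

set_option autoImplicit false

open CongruenceSubgroup Module
open Fermat.Agent.JT3

noncomputable section

namespace Fermat.Agent.LR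

variable {N : ℕ} {q : ℕ} [Fact q.Prime]

/-! ### `i` and `i†` as linear maps -/

/-- `i` as an `R`-linear map -/
def lrtop_vc_iLin (hqN : ¬ q ∣ N) (R A : Type*) [Semiring R] [AddCommGroup A] [Module R A] :
    ((gh_H N →+ A) × (gh_H N →+ A)) →ₗ[R] (gh_H (N * q) →+ A) where
  toFun := lrh_i hqN A
  map_add' := map_add _
  map_smul' c u := by
    refine AddMonoidHom.ext fun x => ?_
    show c • u.1 (lrh_A N q x) + c • u.2 (lrh_B hqN x) = c • (u.1 (lrh_A N q x) + u.2 (lrh_B hqN x))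
    rw [smul_add]

@[simp] theorem lrtop_vc_iLin_apply (hqN : ¬ q ∣ N) (R A : Type*) [Semiring R] [AddCommGroup A]
    [Module R A] (u : (gh_H N →+ A) × (gh_H N →+ A)) :
    lrtop_vc_iLin hqN R A u = lrh_i hqN A u := rfl

/-- `i†` as an `R`-linear map -/
def lrtop_vc_idagLin (hqN : ¬ q ∣ N) (R A : Type*) [Semiring R] [AddCommGroup A] [Module R A] :
    (gh_H (N * q) →+ A) →ₗ[R] ((gh_H N →+ A) × (gh_H N →+ A)) where
  toFun := lrh_idag hqN A
  map_add' := map_add _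
  map_smul' _ _ := rfl

@[simp] theorem lrtop_vc_idagLin_apply (hqN : ¬ q ∣ N) (R A : Type*) [Semiring R] [AddCommGroup A]
    [Module R A] (z : gh_H (N * q) →+ A) :
    lrtop_vc_idagLin hqN R A z = lrh_idag hqN A z := rfl

/-! ### Hecke operators on pairs -/

/-- the Hecke precomposition on pairs -/
def lrtop_vc_pre2 (N : ℕ) (A : Type*) [AddCommGroup A] (l : ℕ) :
    (gh_H N →+ A) × (gh_H N →+ A) →+ (gh_H N →+ A) × (gh_H N →+ A) :=
  (lrtop_ha_pre N A l).prodMap (lrtop_ha_pre N A l)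

@[simp] theorem lrtop_vc_pre2_apply (A : Type*) [AddCommGroup A] (l : ℕ)
    (u : (gh_H N →+ A) × (gh_H N →+ A)) :
    lrtop_vc_pre2 N A l u = (lrtop_ha_pre N A l u.1, lrtop_ha_pre N A l u.2) := rfl

/-- the linear Hecke precomposition on pairs -/
def lrtop_vc_pre2Lin (N : ℕ) (R A : Type*) [Semiring R] [AddCommGroup A] [Module R A] (l : ℕ) :
    ((gh_H N →+ A) × (gh_H N →+ A)) →ₗ[R] ((gh_H N →+ A) × (gh_H N →+ A)) :=
  (lrtop_ha_preLin N R A l).prodMap (lrtop_ha_preLin N R A l)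

@[simp] theorem lrtop_vc_pre2Lin_apply (R A : Type*) [Semiring R] [AddCommGroup A] [Module R A]
    (l : ℕ) (u : (gh_H N →+ A) × (gh_H N →+ A)) :
    lrtop_vc_pre2Lin N R A l u = (lrtop_ha_pre N A l u.1, lrtop_ha_pre N A l u.2) := rfl

/-- `hcommP` -/
theorem lrtop_vc_pre2_comm [NeZero N] {A : Type*} [AddCommGroup A] [NoZeroSMulDivisors ℕ A]
    (l l' : ℕ) (w : (gh_H N →+ A) × (gh_H N →+ A)) :
    lrtop_vc_pre2 N A l (lrtop_vc_pre2 N A l' w) = lrtop_vc_pre2 N A l' (lrtop_vc_pre2 N A l w) :=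
  Prod.ext (lrtop_ha_pre_comm l l' w.1) (lrtop_ha_pre_comm l l' w.2)

/-- `hrt` -/
theorem lrtop_vc_red2_pre2 (p l : ℕ) (w : (gh_H N →+ ℤ) × (gh_H N →+ ℤ)) :
    lrtop_ha_red2 N p (lrtop_vc_pre2 N ℤ l w) =
      lrtop_vc_pre2Lin N (ZMod p) (ZMod p) l (lrtop_ha_red2 N p w) := rfl

/-! ### Equivariance of `i`, `i†` -/

/-- `hφt`, `hφbar`-type statement: `i†` commutes with the Hecke precompositions -/
theorem lrtop_vc_idag_pre [NeZero N] (hqN : ¬ q ∣ N) (A : Type*) [AddCommGroup A] {l : ℕ}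
    (hl : l.Prime) (hlNq : ¬ l ∣ N * q) (z : gh_H (N * q) →+ A) :
    haveI : NeZero (N * q) := ⟨Nat.mul_ne_zero (NeZero.ne N) (Fact.out : q.Prime).ne_zero⟩
    lrh_idag hqN A (lrtop_ha_pre (N * q) A l z) = lrtop_vc_pre2 N A l (lrh_idag hqN A z) := by
  have : NeZero (N * q) := ⟨Nat.mul_ne_zero (NeZero.ne N) (Fact.out : q.Prime).ne_zero⟩
  have : Fact l.Prime := ⟨hl⟩
  have hlN : ¬ l ∣ N := fun h => hlNq (Dvd.dvd.mul_right h q)
  rw [lrtop_ha_pre_eq_TH A hlNq, lre_idag_TH hqN hlN hlNq, lrtop_vc_pre2_apply,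
    lrtop_ha_pre_eq_TH A hlN, lrtop_ha_pre_eq_TH A hlN]

/-- `hψt`: `i` commutes with the Hecke precompositions -/
theorem lrtop_vc_i_pre [NeZero N] (hqN : ¬ q ∣ N) (A : Type*) [AddCommGroup A] {l : ℕ}
    (hl : l.Prime) (hlNq : ¬ l ∣ N * q) (u : (gh_H N →+ A) × (gh_H N →+ A)) :
    haveI : NeZero (N * q) := ⟨Nat.mul_ne_zero (NeZero.ne N) (Fact.out : q.Prime).ne_zero⟩
    lrh_i hqN A (lrtop_vc_pre2 N A l u) = lrtop_ha_pre (N * q) A l (lrh_i hqN A u) := by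
  have : NeZero (N * q) := ⟨Nat.mul_ne_zero (NeZero.ne N) (Fact.out : q.Prime).ne_zero⟩
  have : Fact l.Prime := ⟨hl⟩
  have hlN : ¬ l ∣ N := fun h => hlNq (Dvd.dvd.mul_right h q)
  rw [lrtop_ha_pre_eq_TH A hlNq, lre_i_TH hqN hlN hlNq, lrtop_vc_pre2_apply,
    lrtop_ha_pre_eq_TH A hlN, lrtop_ha_pre_eq_TH A hlN]

/-- `hφbar`: reduction commutes with `i†` -/
theorem lrtop_vc_red_idag (hqN : ¬ q ∣ N) (p : ℕ) (x : gh_H (N * q) →+ ℤ) :
    lrh_idag hqN (ZMod p) (lrtop_ha_red (N * q) p x) = lrtop_ha_red2 N p (lrh_idag hqN ℤ x) := rfl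

/-- reduction commutes with `i` -/
theorem lrtop_vc_red_i (hqN : ¬ q ∣ N) (p : ℕ) (w : (gh_H N →+ ℤ) × (gh_H N →+ ℤ)) :
    lrh_i hqN (ZMod p) (lrtop_ha_red2 N p w) = lrtop_ha_red (N * q) p (lrh_i hqN ℤ w) := by
  refine AddMonoidHom.ext fun x => ?_
  show ((w.1 (lrh_A N q x) : ℤ) : ZMod p) + ((w.2 (lrh_B hqN x) : ℤ) : ZMod p) =
    ((w.1 (lrh_A N q x) + w.2 (lrh_B hqN x) : ℤ) : ZMod p)
  push_cast
  rfl

/-! ### The level-raising vector -/

/-- **the level-raising vector**: if `T_q v = ε (q + 1) v` with `ε² = 1` then `u = (v, -ε v)` is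
killed by `i† ∘ i`. -/
theorem lrtop_vc_hLR [NeZero N] (hqN : ¬ q ∣ N) (p : ℕ) (v : gh_H N →+ ZMod p) (ε : ℤ)
    (hε : ε = 1 ∨ ε = -1)
    (hvq : lrtop_ha_pre N (ZMod p) q v = (((ε * ((q : ℤ) + 1) : ℤ)) : ZMod p) • v) :
    lrh_idag hqN (ZMod p) (lrh_i hqN (ZMod p) (v, -((ε : ZMod p) • v))) = 0 := by
  have hε2 : (ε : ZMod p) * (ε : ZMod p) = 1 := by
    rcases hε with h | h <;> subst h <;> simp
  have hT : v.comp (t2e_TH hqN) = (((ε * ((q : ℤ) + 1) : ℤ)) : ZMod p) • v := by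
    rw [← lrtop_ha_pre_eq_TH (ZMod p) hqN]
    exact hvq
  rw [lrh_matrix]
  refine Prod.ext ?_ ?_
  · refine AddMonoidHom.ext fun x => ?_
    have h1 := DFunLike.congr_fun hT x
    simp only [AddMonoidHom.comp_apply, AddMonoidHom.smul_apply, smul_eq_mul] at h1
    simp only [AddMonoidHom.add_apply, AddMonoidHom.comp_apply, AddMonoidHom.neg_apply,
      AddMonoidHom.smul_apply, smul_eq_mul, Prod.fst_zero, AddMonoidHom.zero_apply, nsmul_eq_mul,
      h1]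
    push_cast
    linear_combination (-(v x) * ((q : ZMod p) + 1)) * hε2
  · refine AddMonoidHom.ext fun x => ?_
    have h1 := DFunLike.congr_fun hT x
    simp only [AddMonoidHom.comp_apply, AddMonoidHom.smul_apply, smul_eq_mul] at h1
    simp only [AddMonoidHom.add_apply, AddMonoidHom.comp_apply, AddMonoidHom.neg_apply,
      AddMonoidHom.smul_apply, smul_eq_mul, Prod.snd_zero, AddMonoidHom.zero_apply, nsmul_eq_mul,
      h1]
    push_cast
    ring

/-- the level-raising vector is nonzero -/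
theorem lrtop_vc_ne_zero {p : ℕ} (v : gh_H N →+ ZMod p) (hv : v ≠ 0) (c : ZMod p) :
    ((v, -(c • v)) : (gh_H N →+ ZMod p) × (gh_H N →+ ZMod p)) ≠ 0 :=
  fun h => hv (congrArg Prod.fst h)

/-- the level-raising vector is an eigenvector wherever `v` is -/
theorem lrtop_vc_eigen {p : ℕ} (v : gh_H N →+ ZMod p) (c a : ZMod p) (l : ℕ)
    (hv : lrtop_ha_pre N (ZMod p) l v = a • v) :
    lrtop_vc_pre2Lin N (ZMod p) (ZMod p) l (v, -(c • v)) = a • (v, -(c • v)) := by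
  rw [lrtop_vc_pre2Lin_apply]
  refine Prod.ext hv ?_
  show lrtop_ha_pre N (ZMod p) l (-(c • v)) = a • -(c • v)
  rw [map_neg, ← lrtop_ha_preLin_apply (ZMod p), map_smul, lrtop_ha_preLin_apply, hv, smul_neg,
    smul_comm]

end Fermat.Agent.LR
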